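import Fermat.Agent.CAR.ON.Defs
import Fermat.Agent.GAL.FF.DegPrincipal
import Fermat.Agent.GAL.FF.ZeroDeg

/-!
# CAR / ON : package ON-F : two degree inequalities for function fields
-/

set_option autoImplicit false
set_option linter.style.haveILetI false

open Polynomial ModularCurve AlgebraicCurve

noncomputable section

namespace Fermat.Agent.CAR.ON

open Fermat.Agent.GAL.KL Fermat.Agent.S24.FF Fermat.Agent.GAL

variable {K F₀ F : Type*} [Field K] [Field F₀] [Field F] [Algebra K F₀] [Algebra K F]

/-- a transcendental element is nonzero. -/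
theorem Finrank_ne_zero_of_transcendental {f : F} (hf : Transcendental K f) : f ≠ 0 := by
  rintro rfl
  exact hf (isAlgebraic_zero)

/-- `(f g)_∞ ≤ (f)_∞ + (g)_∞`. -/
theorem Finrank_poleDiv_mul_le [IsFF1 K F] {f g : F} (hf : f ≠ 0) (hg : g ≠ 0) :
    FF.poleDiv K (f * g) ≤ FF.poleDiv K f + FF.poleDiv K g := by
  intro v
  rw [Finsupp.add_apply, FF.poleDiv_apply, FF.poleDiv_apply, FF.poleDiv_apply, v.ord_mul hf hg]
  rcases le_total 0 (- v.ord f) with h1 | h1 <;> rcases le_total 0 (- v.ord g) with h2 | h2 <;>
    rcases le_total 0 (- (v.ord f + v.ord g)) with h3 | h3 <;>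
    simp only [max_eq_left, max_eq_right, h1, h2, h3] <;> omega

/-- `deg (f g)_∞ ≤ deg (f)_∞ + deg (g)_∞`.
Proof: `FF.degree_poleDiv` three times; `poleDiv (f g) ≤ poleDiv f + poleDiv g` pointwise
(`max 0 (-(a + b)) ≤ max 0 (-a) + max 0 (-b)`, `Place.ord_mul`), and the degree is monotone (`FF.degree_nonneg` applied to the difference). -/
theorem finrank_mul_le [IsAlgClosed K] [IsFF1 K F] {f g : F} (hf : Transcendental K f)
    (hg : Transcendental K g) (hfg : Transcendental K (f * g)) :
    Module.finrank (IntermediateField.adjoin K {f * g}) F ≤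
      Module.finrank (IntermediateField.adjoin K {f}) F +
        Module.finrank (IntermediateField.adjoin K {g}) F := by
  have h1 := FF.degree_poleDiv hf
  have h2 := FF.degree_poleDiv hg
  have h3 := FF.degree_poleDiv hfg
  have h4 := FF.degree_mono (Finrank_poleDiv_mul_le (K := K)
    (Finrank_ne_zero_of_transcendental hf) (Finrank_ne_zero_of_transcendental hg))
  rw [map_add, h1, h2, h3] at h4
  exact_mod_cast h4

/-- `[F : K(α x)] ≤ [F : α F₀] * m` if `F₀` is spanned by `m` elements over `K(x)`.
Proof: let `b_1 .. b_N` be a basis of `F` over `F₀` (via `algebraAlong α`; finite dimensional since `finrank = N > 0`).  For `z : F`,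
`z = ∑ α(c_i) b_i`, `D_i(x) c_i = ∑_j p_ij(x) e_j` (`Spans`), so `α(c_i) = ∑_j (p_ij(α x) / D_i(α x)) α(e_j)`
(`D_i(α x) = α (D_i(x)) ≠ 0` by `hx`; `aeval (α x) p = α (aeval x p)` is `Polynomial.aeval_algHom_apply`).  Hence the `N m` elements `α(e_j) b_i` span `F` over `K(α x)`:
`finrank_span_le_card` / `Module.finrank_le_of_span_eq_top`-type lemma. -/
theorem finrank_adjoin_map_le (α : F₀ →ₐ[K] F) {N : ℕ} (hN : finrankAlong K α = N) (hN0 : 0 < N)
    {x : F₀} (hx : Transcendental K x) {m : ℕ} (e : Fin m → F₀) (hs : Spans K x e) :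
    Module.finrank (IntermediateField.adjoin K {α x}) F ≤ N * m := by
  letI := algebraAlong α
  have hN' : Module.finrank F₀ F = N := hN
  haveI : Module.Finite F₀ F := Module.finite_of_finrank_pos (by omega)
  let b := Module.finBasis F₀ F
  have hsmul : ∀ (c : F₀) (y : F), c • y = α c * y := fun c y => rfl
  -- each `α c` is an `E`-combination of the `α (e j)`
  have hc : ∀ c : F₀, ∃ w : Fin m → IntermediateField.adjoin K {α x},
      α c = ∑ j, w j • α (e j) := by
    intro c
    obtain ⟨D, p, hD, hDp⟩ := hs c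
    have hD0 : aeval (α x) D ≠ 0 := by
      rw [Polynomial.aeval_algHom_apply]
      intro h0
      have h1 : aeval x D = 0 := by
        apply α.toRingHom.injective
        simpa using h0
      exact hD ((transcendental_iff.mp hx) D h1)
    have hmem : ∀ j, aeval (α x) (p j) / aeval (α x) D ∈ IntermediateField.adjoin K {α x} :=
      fun j => (IntermediateField.mem_adjoin_simple_iff K _).mpr ⟨p j, D, rfl⟩
    refine ⟨fun j => ⟨_, hmem j⟩, ?_⟩
    have h2 : aeval (α x) D * α c = ∑ j, aeval (α x) (p j) * α (e j) := by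
      have := congrArg α hDp
      rw [map_mul, comb, map_sum] at this
      simp only [map_mul, ← Polynomial.aeval_algHom_apply] at this
      exact this
    have h3 : α c = (aeval (α x) D)⁻¹ * ∑ j, aeval (α x) (p j) * α (e j) := by
      rw [← h2, ← mul_assoc, inv_mul_cancel₀ hD0, one_mul]
    rw [h3, Finset.mul_sum]
    refine Finset.sum_congr rfl fun j _ => ?_
    rw [IntermediateField.smul_def]
    simp only [smul_eq_mul]
    field_simp
  have htop : Submodule.span (IntermediateField.adjoin K {α x})
      (Set.range fun q : Fin (Module.finrank F₀ F) × Fin m => α (e q.2) * b q.1) = ⊤ := by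
    rw [eq_top_iff]
    intro z _
    rw [← b.sum_repr z]
    refine Submodule.sum_mem _ fun i _ => ?_
    obtain ⟨w, hw⟩ := hc (b.repr z i)
    rw [hsmul, hw, Finset.sum_mul]
    refine Submodule.sum_mem _ fun j _ => ?_
    rw [smul_mul_assoc]
    exact Submodule.smul_mem _ _ (Submodule.subset_span ⟨(i, j), rfl⟩)
  have h := finrank_range_le_card (R := IntermediateField.adjoin K {α x})
    (fun q : Fin (Module.finrank F₀ F) × Fin m => α (e q.2) * b q.1)
  unfold Set.finrank at h
  rw [htop, finrank_top] at h
  simpa [hN'] using h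

end Fermat.Agent.CAR.ON
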