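import Fermat.Agent.CAR.ON.Defs

/-!
# CAR / ON : package ON-A : block orthonormality `ONs` : units, singletons, gluing of two blocks
-/

set_option autoImplicit false

open Polynomial

noncomputable section

namespace Fermat.Agent.CAR.ON

open Fermat.Agent.GAL.KL Fermat.Agent.CAR.KLm

variable {K F Γ₀ ι : Type*} [Field K] [Field F] [Algebra K F] [LinearOrderedCommGroupWithZero Γ₀]
  {v : ι → Valuation F Γ₀} {o : ι} {t : F}

/-- `ONs` over the whole index set is `KLm.ONm`. -/
theorem ons_univ_iff [Fintype ι] [Nonempty ι] {d : ℕ} {e : Fin d → F} :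
    ONs K v o Set.univ t e ↔ ONm K v o t e := by
  unfold ONs ONm
  simp only [NN_le_iff, Set.mem_univ, true_imp_iff]

/-- a family orthonormal for the single valuation `v i`. -/
theorem ons_singleton (St : Setup K v t) (i : ι) {d : ℕ} {e : Fin d → F} (h : ON K (v i) t e) :
    ONs K v o {i} t e := by
  intro p γ
  simp only [Set.mem_singleton_iff, forall_eq]
  rw [h p γ]
  exact forall_congr' fun j => by rw [St.eq_aeval i o]

/-- the members of an `ONs` family have norm `≤ 1` on the block. -/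
theorem ONs.le_one {S : Set ι} {d : ℕ} {e : Fin d → F} (h : ONs K v o S t e) {i : ι} (hi : i ∈ S)
    (j : Fin d) : v i (e j) ≤ 1 := by
  classical
  have h1 := (h (Pi.single j 1) 1).2 (fun j' => by
    by_cases hj : j' = j
    · subst hj
      rw [Pi.single_eq_same, map_one, map_one]
    · rw [Pi.single_eq_of_ne hj, map_zero, map_zero]
      exact zero_le) i hi
  rwa [comb_single, map_one, one_mul] at h1

/-- multiplication by an element which is a unit for all valuations of the block. -/
theorem ONs.mul_unit {S : Set ι} {d : ℕ} {e : Fin d → F} (h : ONs K v o S t e) {E : F}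
    (hE : ∀ i ∈ S, v i E = 1) : ONs K v o S t (fun j => E * e j) := by
  intro p γ
  have hc : comb K t p (fun j => E * e j) = E * comb K t p e := by
    simp only [comb, Finset.mul_sum]
    exact Finset.sum_congr rfl fun j _ => by ring
  rw [hc, ← h p γ]
  refine forall_congr' fun i => forall_congr' fun hi => ?_
  rw [map_mul, hE i hi, one_mul]

/-- the combination over `Fin.append` splits. -/
theorem glue_comb_append {d d' : ℕ} (a : Fin d → F) (b : Fin d' → F) (p : Fin (d + d') → K[X]) :
    comb K t p (Fin.append a b) =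
      comb K t (fun i => p (Fin.castAdd d' i)) a + comb K t (fun i => p (Fin.natAdd d i)) b := by
  unfold comb
  rw [Fin.sum_univ_add]
  congr 1
  · exact Finset.sum_congr rfl fun i _ => by rw [Fin.append_left]
  · exact Finset.sum_congr rfl fun i _ => by rw [Fin.append_right]

/-- crude bound for a combination of integral elements. -/
theorem glue_comb_le {u : Valuation F Γ₀} {d : ℕ} (a : Fin d → F) (ha : ∀ i, u (a i) ≤ 1)
    (p : Fin d → K[X]) {γ : Γ₀} (hp : ∀ i, u (aeval t (p i)) ≤ γ) : u (comb K t p a) ≤ γ := by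
  unfold comb
  refine Valuation.map_sum_le u fun i _ => ?_
  rw [map_mul]
  exact (mul_le_mul' (hp i) (ha i)).trans (by rw [mul_one])

/-- strict bound for a combination of elements of norm `< 1`. -/
theorem glue_comb_lt {u : Valuation F Γ₀} {d : ℕ} (a : Fin d → F) (ha : ∀ i, u (a i) < 1)
    (p : Fin d → K[X]) {γ : Γ₀} (hγ : γ ≠ 0) (hp : ∀ i, u (aeval t (p i)) ≤ γ) :
    u (comb K t p a) < γ := by
  unfold comb
  refine Valuation.map_sum_lt u hγ fun i _ => ?_
  rw [map_mul]
  calc u (aeval t (p i)) * u (a i) ≤ γ * u (a i) := mul_le_mul' (hp i) le_rfl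
    _ < γ * 1 := mul_lt_mul_of_pos_left (ha i) (zero_lt_iff.2 hγ)
    _ = γ := mul_one _

/-- one half of the gluing argument: if the maximum `γ₀` of all coefficients is attained in the
`a`-half, some valuation of the block of `a` sees it. -/
theorem glue_half [Finite ι] (St : Setup K v t) {S : Set ι} {d d' : ℕ} {a : Fin d → F}
    {b : Fin d' → F} (ha : ONs K v o S t a) (hb1 : ∀ i ∈ S, ∀ j, v i (b j) < 1)
    (p1 : Fin d → K[X]) (p2 : Fin d' → K[X]) {γ₀ : Γ₀} (hγ₀ : γ₀ ≠ 0)
    (h1 : ∀ j, v o (aeval t (p1 j)) ≤ γ₀) (h1' : ∃ j, v o (aeval t (p1 j)) = γ₀)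
    (h2 : ∀ j, v o (aeval t (p2 j)) ≤ γ₀) :
    ∃ i ∈ S, v i (comb K t p1 a + comb K t p2 b) = γ₀ := by
  classical
  have : Fintype ι := Fintype.ofFinite ι
  have hle : ∀ i ∈ S, v i (comb K t p1 a) ≤ γ₀ := (ha p1 γ₀).2 h1
  have hex : ∃ i ∈ S, v i (comb K t p1 a) = γ₀ := by
    by_contra hcon
    push Not at hcon
    have hlt : ∀ i ∈ Finset.univ.filter (· ∈ S), v i (comb K t p1 a) < γ₀ := by
      intro i hi
      have hiS : i ∈ S := (Finset.mem_filter.1 hi).2
      exact lt_of_le_of_ne (hle i hiS) (hcon i hiS)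
    obtain ⟨δ, hδ, hb⟩ := exists_lt_bound _ (fun i => v i (comb K t p1 a)) γ₀ hγ₀ hlt
    have h3 := (ha p1 δ).1 fun i hi => hb i (Finset.mem_filter.2 ⟨Finset.mem_univ i, hi⟩)
    obtain ⟨j, hj⟩ := h1'
    have := h3 j
    rw [hj] at this
    exact absurd hδ (not_lt.2 this)
  obtain ⟨i, hi, hiA⟩ := hex
  refine ⟨i, hi, ?_⟩
  have hB : v i (comb K t p2 b) < v i (comb K t p1 a) := by
    rw [hiA]
    exact glue_comb_lt b (hb1 i hi) p2 hγ₀ fun j => by rw [St.eq_aeval i o]; exact h2 j
  rw [Valuation.map_add_eq_of_lt_left (v i) hB, hiA]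

/-- **gluing**: `a` orthonormal on the block `S₁` and `< 1` on `S₂`, `b` orthonormal on `S₂` and `< 1` on `S₁`.
Proof: `comb p (append a b) = A + B` (`T1.On2_comb_append` pattern).  `←` is the ultrametric inequality + `Setup.eq_aeval`.
`→`: let `γ₀` be the max of all `v o (p j (t))`; if `γ₀ > γ` and the max is attained in the `a`-half, then (finiteness of `ι`)
there is `i ∈ S₁` with `v i A = γ₀` (otherwise `ha` with `γ' := max_{i ∈ S₁} v i A < γ₀` gives a contradiction), while `v i B < γ₀`,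
so `v i (A + B) = γ₀ > γ`. -/
theorem ons_glue [Finite ι] (St : Setup K v t) {S₁ S₂ : Set ι} {d d' : ℕ} {a : Fin d → F}
    {b : Fin d' → F} (ha : ONs K v o S₁ t a) (hb : ONs K v o S₂ t b)
    (ha2 : ∀ i ∈ S₂, ∀ j, v i (a j) < 1) (hb1 : ∀ i ∈ S₁, ∀ j, v i (b j) < 1) :
    ONs K v o (S₁ ∪ S₂) t (Fin.append a b) := by
  intro p γ
  rw [glue_comb_append]
  set p1 : Fin d → K[X] := fun i => p (Fin.castAdd d' i) with hp1
  set p2 : Fin d' → K[X] := fun i => p (Fin.natAdd d i) with hp2
  constructor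
  · intro h
    by_contra hcon
    push Not at hcon
    obtain ⟨j₀, hj₀⟩ := hcon
    obtain ⟨jm, -, hjm⟩ := Finset.exists_max_image Finset.univ
      (fun j => v o (aeval t (p j))) ⟨j₀, Finset.mem_univ j₀⟩
    set γ₀ : Γ₀ := v o (aeval t (p jm)) with hγ₀
    have hmax : ∀ j, v o (aeval t (p j)) ≤ γ₀ := fun j => hjm j (Finset.mem_univ j)
    have hlt : γ < γ₀ := lt_of_lt_of_le hj₀ (hmax j₀)
    have hne : γ₀ ≠ 0 := (lt_of_le_of_lt zero_le hlt).ne'
    have hfin : ∃ i ∈ S₁ ∪ S₂, v i (comb K t p1 a + comb K t p2 b) = γ₀ := by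
      induction jm using Fin.addCases with
      | left j =>
        obtain ⟨i, hi, h3⟩ := glue_half St ha hb1 p1 p2 hne (fun j => hmax _) ⟨j, rfl⟩
          (fun j => hmax _)
        exact ⟨i, Or.inl hi, h3⟩
      | right j =>
        obtain ⟨i, hi, h3⟩ := glue_half St hb ha2 p2 p1 hne (fun j => hmax _) ⟨j, rfl⟩
          (fun j => hmax _)
        exact ⟨i, Or.inr hi, by rw [add_comm]; exact h3⟩
    obtain ⟨i, hi, h3⟩ := hfin
    have := h i hi
    rw [h3] at this
    exact absurd hlt (not_lt.2 this)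
  · intro h i hi
    have c1 : ∀ j, v i (aeval t (p1 j)) ≤ γ := fun j => by rw [St.eq_aeval i o]; exact h _
    have c2 : ∀ j, v i (aeval t (p2 j)) ≤ γ := fun j => by rw [St.eq_aeval i o]; exact h _
    refine Valuation.map_add_le (v i) ?_ ?_
    · rcases hi with hi | hi
      · exact (ha p1 γ).2 (fun j => h _) i hi
      · exact glue_comb_le a (fun j => (ha2 i hi j).le) p1 c1
    · rcases hi with hi | hi
      · exact glue_comb_le b (fun j => (hb1 i hi j).le) p2 c2
      · exact (hb p2 γ).2 (fun j => h _) i hi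

end Fermat.Agent.CAR.ON
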