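import Fermat.Agent.CAR.ON.Defs
import Fermat.Agent.TOR.T1.OnOrders

/-!
# CAR / ON : package ON-B : the middle block is orthonormal (Vandermonde)
-/

set_option autoImplicit false

open Polynomial

noncomputable section

namespace Fermat.Agent.CAR.ON

open Fermat.Agent.GAL.KL Fermat.Agent.GAL.KLC Fermat.Agent.TOR.T1 Fermat.Agent.CAR.KLm

variable {K F k Γ₀ I : Type*} [Field K] [Field F] [Algebra K F] [Field k]
  [LinearOrderedCommGroupWithZero Γ₀]
  {v : Idx I → Valuation F Γ₀} {ρ : ∀ i, (v i).integer →+* LaurentSeries k} {t : F}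

/-- a polynomial of Gauss norm `≤ 1` reduces in the same way at all middle indices. -/
theorem exists_rd_aeval (St : Setup K v t) (hρ : ∀ i, IsRed K (v i) (ρ i))
    (hc : ∀ (i j : I) (a : K) (φ : LaurentSeries k),
      Rd (ρ (md i)) (algebraMap K F a) φ → Rd (ρ (md j)) (algebraMap K F a) φ)
    {τ : LaurentSeries k} (ht : ∀ i : I, Rd (ρ (md i)) t τ) (p : K[X])
    (hp : v oo (aeval t p) ≤ 1) : ∃ φ : LaurentSeries k, ∀ i : I, Rd (ρ (md i)) (aeval t p) φ := by
  rcases isEmpty_or_nonempty I with hI | ⟨⟨i₀⟩⟩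
  · exact ⟨0, fun i => (hI.false i).elim⟩
  have h1 : v (md i₀) (aeval t p) ≤ 1 := by rw [St.eq_aeval (md i₀) oo]; exact hp
  have h2 : ∀ n, v (md i₀) (algebraMap K F (p.coeff n)) ≤ 1 := (St.G (md i₀) p 1).1 h1
  choose φ hφ using fun n => exists_rd (ρ := ρ (md i₀)) (h2 n)
  refine ⟨∑ n ∈ Finset.range (p.natDegree + 1), φ n * τ ^ n, fun i => ?_⟩
  rw [aeval_eq_sum_range]
  refine Rd.sum _ fun n _ => ?_
  rw [Algebra.smul_def]
  exact (hc i₀ i _ _ (hφ n)).mul ((ht i).pow n)

/-- the combination over the product family, sorted by powers of `δ`. -/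
theorem mid_comb_prodFam {d : ℕ} (a : Fin d → F) (δ : F) (J : ℕ) (p : Fin (J * d) → K[X]) :
    comb K t p (prodFam a δ J) =
      ∑ r : Fin J, comb K t (fun s => p (finProdFinEquiv (r, s))) a * δ ^ (r : ℕ) := by
  unfold comb prodFam
  rw [← Equiv.sum_comp finProdFinEquiv, Fintype.sum_prod_type]
  refine Finset.sum_congr rfl fun r _ => ?_
  rw [Finset.sum_mul]
  refine Finset.sum_congr rfl fun s _ => ?_
  have h1 : (finProdFinEquiv (r, s)).divNat = r :=
    congrArg Prod.fst (finProdFinEquiv.symm_apply_apply (r, s))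
  have h2 : (finProdFinEquiv (r, s)).modNat = s :=
    congrArg Prod.snd (finProdFinEquiv.symm_apply_apply (r, s))
  rw [h1, h2]
  ring

/-- Vandermonde: a polynomial expression of degree `< J ≤ #I` vanishing at `#I` distinct points. -/
theorem mid_vandermonde {R I' : Type*} [Field R] [Fintype I'] {J : ℕ} (c : Fin J → R) (x : I' → R)
    (hx : Function.Injective x) (hJ : J ≤ Fintype.card I')
    (h : ∀ i, ∑ r : Fin J, c r * x i ^ (r : ℕ) = 0) (r : Fin J) : c r = 0 := by
  set f : R[X] := ∑ r : Fin J, C (c r) * X ^ (r : ℕ) with hf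
  have hdeg : f.degree < J := degree_sum_fin_lt c
  have hf0 : f = 0 := by
    by_contra hne
    apply hne
    refine eq_zero_of_natDegree_lt_card_of_eval_eq_zero f hx (fun i => ?_) ?_
    · rw [hf, eval_finsetSum]
      simpa only [eval_mul, eval_C, eval_pow, eval_X] using h i
    · exact lt_of_lt_of_le ((natDegree_lt_iff_degree_lt hne).2 hdeg) hJ
  have h1 : f.coeff r = c r := by
    rw [hf, finsetSum_coeff, Finset.sum_eq_single r]
    · rw [coeff_C_mul_X_pow, if_pos rfl]
    · intro b _ hb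
      rw [coeff_C_mul_X_pow, if_neg]
      intro h2
      exact hb (Fin.ext h2.symm)
    · intro h2
      exact absurd (Finset.mem_univ r) h2
  rw [← h1, hf0, coeff_zero]

/-- **the middle block.**  `a_s` (`s < d`) reduce to `ε_s` at ALL middle indices, the orders of the `ε_s` are distinct modulo
`D = -ord τ`, `τ = red t`; `δ` reduces to `cc i * ψ` at `md i`, `cc` injective, `ψ ≠ 0`, `J ≤ #I`.
Then `a_s δ^j` (`s < d`, `j < J`) is orthonormal over `K[t]` for `sup_i v (md i)`.

Proof.  `comb p (prodFam a δ J) = ∑_j P_j δ^j`, `P_j = comb (p (j, ·)) a`.  By `T1.on_of_orders` `a` is `ON` for each `v (md i)`, so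
`v (md i) P_j = max_s |p (j,s)|` for all `i`.  `←` is clear (`v (md i) δ ≤ 1`).  `→`: let `γ₀ = max |p (j,s)|`, suppose `γ < γ₀`; choose
`b : K` with `|b| = γ₀` (`IsRed.val`) and divide: `P_j / b` reduces to the same `φ_j` at all `md i` (`exists_rd_aeval`), some `φ_{j₀} ≠ 0`
(`on_of_orders` again + `rd_zero_iff`), and `∑_j φ_j ψ^j (C (cc i))^j = 0` for all `i`: the polynomial `∑_j (φ_j ψ^j) X^j` of degree `< J ≤ #I`
over the field `k((Q))` has the `#I` distinct roots `C (cc i)`, so it is `0`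
(`Polynomial.eq_zero_of_natDegree_lt_card_of_eval_eq_zero`), contradiction. -/
theorem ons_mid [Fintype I] (St : Setup K v t) (hρ : ∀ i, IsRed K (v i) (ρ i))
    (hc : ∀ (i j : I) (a : K) (φ : LaurentSeries k),
      Rd (ρ (md i)) (algebraMap K F a) φ → Rd (ρ (md j)) (algebraMap K F a) φ)
    {τ : LaurentSeries k} (ht : ∀ i : I, Rd (ρ (md i)) t τ) {D : ℕ} (hD : 0 < D)
    (hτ : τ.order = -(D : ℤ)) {d : ℕ} (a : Fin d → F) (ε : Fin d → LaurentSeries k)
    (ha : ∀ (i : I) s, Rd (ρ (md i)) (a s) (ε s)) (hε : ∀ s, ε s ≠ 0)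
    (hdist : ∀ s s', (D : ℤ) ∣ (ε s).order - (ε s').order → s = s')
    {δ : F} {ψ : LaurentSeries k} {cc : I → k} (Dl : Del v ρ δ ψ cc) {J : ℕ}
    (hJ : J ≤ Fintype.card I) :
    ONs K v oo (Set.range (md : I → Idx I)) t (prodFam a δ J) := by
  have hON : ∀ i : I, ON K (v (md i)) t a := fun i =>
    on_of_orders (hρ (md i)) (ht i) hD hτ a ε (ha i) hε hdist
  intro p γ
  rw [mid_comb_prodFam]
  constructor
  · intro h
    by_contra hcon
    push Not at hcon
    obtain ⟨j₀, hj₀⟩ := hcon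
    obtain ⟨jm, -, hjm⟩ := Finset.exists_max_image Finset.univ
      (fun j => v oo (aeval t (p j))) ⟨j₀, Finset.mem_univ j₀⟩
    have hmax : ∀ j, v oo (aeval t (p j)) ≤ v oo (aeval t (p jm)) :=
      fun j => hjm j (Finset.mem_univ j)
    have hlt : γ < v oo (aeval t (p jm)) := lt_of_lt_of_le hj₀ (hmax j₀)
    obtain ⟨b, hb⟩ := (St.G oo).exists_const (p jm)
    rw [hb] at hlt hmax
    have hvb : v oo (algebraMap K F b) ≠ 0 := (lt_of_le_of_lt zero_le hlt).ne'
    have hvb' : ∀ i : Idx I, v i (algebraMap K F b) = v oo (algebraMap K F b) :=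
      fun i => St.eqL i oo b
    -- the scaled coefficients
    set p' : Fin (J * d) → K[X] := fun j => C b⁻¹ * p j with hp'
    have hp'v : ∀ j, v oo (aeval t (p' j)) = (v oo (algebraMap K F b))⁻¹ * v oo (aeval t (p j)) := by
      intro j
      rw [hp']
      simp only
      rw [map_mul, aeval_C, map_mul, map_inv₀, map_inv₀]
    have hp'1 : ∀ j, v oo (aeval t (p' j)) ≤ 1 := by
      intro j
      rw [hp'v, inv_mul_le_iff₀ (zero_lt_iff.mpr hvb), mul_one]
      exact hmax j
    have hp'm : v oo (aeval t (p' jm)) = 1 := by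
      rw [hp'v, hb, inv_mul_cancel₀ hvb]
    choose φ hφ using fun j => exists_rd_aeval St hρ hc ht (p' j) (hp'1 j)
    set P' : Fin J → F := fun r => comb K t (fun s => p' (finProdFinEquiv (r, s))) a with hP'
    set Φ : Fin J → LaurentSeries k := fun r => ∑ s, φ (finProdFinEquiv (r, s)) * ε s with hΦ
    have hPΦ : ∀ (i : I) r, Rd (ρ (md i)) (P' r) (Φ r) := fun i r =>
      Rd.sum _ fun s _ => (hφ _ i).mul (ha i s)
    have hscale : ∀ r, P' r = (algebraMap K F b)⁻¹ *
        comb K t (fun s => p (finProdFinEquiv (r, s))) a := by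
      intro r
      rw [hP']
      simp only [comb, Finset.mul_sum]
      refine Finset.sum_congr rfl fun s _ => ?_
      rw [hp']
      simp only
      rw [map_mul, aeval_C, map_inv₀, mul_assoc]
    -- the reduction of the scaled combination vanishes at all middle indices
    have hzero : ∀ i : I, ∑ r : Fin J, (Φ r * ψ ^ (r : ℕ)) * HahnSeries.C (cc i) ^ (r : ℕ) = 0 := by
      intro i
      have h1 : Rd (ρ (md i)) (∑ r : Fin J, P' r * δ ^ (r : ℕ))
          (∑ r : Fin J, Φ r * (HahnSeries.C (cc i) * ψ) ^ (r : ℕ)) :=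
        Rd.sum _ fun r _ => (hPΦ i r).mul ((Dl.rd i).pow r)
      have h2 : v (md i) (∑ r : Fin J, P' r * δ ^ (r : ℕ)) < 1 := by
        have h3 : (∑ r : Fin J, P' r * δ ^ (r : ℕ)) = (algebraMap K F b)⁻¹ *
            ∑ r : Fin J, comb K t (fun s => p (finProdFinEquiv (r, s))) a * δ ^ (r : ℕ) := by
          rw [Finset.mul_sum]
          exact Finset.sum_congr rfl fun r _ => by rw [hscale, mul_assoc]
        rw [h3, map_mul, map_inv₀, hvb', inv_mul_lt_iff₀ (zero_lt_iff.mpr hvb), mul_one]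
        exact lt_of_le_of_lt (h (md i) ⟨i, rfl⟩) hlt
      have h4 := h1.unique ((rd_zero_iff (hρ (md i))).2 h2)
      rw [← h4]
      exact Finset.sum_congr rfl fun r _ => by rw [mul_pow]; ring
    have hvan := mid_vandermonde (fun r : Fin J => Φ r * ψ ^ (r : ℕ))
      (fun i : I => HahnSeries.C (cc i)) (fun i j hij => Dl.inj (HahnSeries.C_injective hij)) hJ hzero
    -- but `Φ r₀ ≠ 0`
    set r₀ : Fin J := jm.divNat with hr₀
    set s₀ : Fin d := jm.modNat with hs₀
    have hjm' : finProdFinEquiv (r₀, s₀) = jm := finProdFinEquiv.apply_symm_apply jm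
    have hΦ0 : Φ r₀ = 0 := by
      have := hvan r₀
      exact (mul_eq_zero.1 this).resolve_right (pow_ne_zero _ Dl.ne)
    have hI : 0 < Fintype.card I := lt_of_lt_of_le (Nat.pos_of_ne_zero fun h0 => by
      subst h0
      exact r₀.elim0) hJ
    obtain ⟨i⟩ := Fintype.card_pos_iff.1 hI
    have h5 : v (md i) (P' r₀) < 1 := by
      rw [← rd_zero_iff (hρ (md i)), ← hΦ0]
      exact hPΦ i r₀
    have h6 := (hON i (fun s => p' (finProdFinEquiv (r₀, s))) _).1 le_rfl s₀
    rw [hjm', St.eq_aeval (md i) oo, hp'm] at h6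
    exact absurd h5 (not_lt.2 h6)
  · rintro h _ ⟨i, rfl⟩
    refine Valuation.map_sum_le _ fun r _ => ?_
    rw [map_mul, map_pow]
    have h1 : v (md i) (comb K t (fun s => p (finProdFinEquiv (r, s))) a) ≤ γ :=
      (hON i _ γ).2 fun s => by rw [St.eq_aeval (md i) oo]; exact h _
    calc v (md i) (comb K t (fun s => p (finProdFinEquiv (r, s))) a) * v (md i) δ ^ (r : ℕ)
        ≤ γ * 1 := mul_le_mul' h1 (pow_le_one' (Dl.rd i).le_one _)
      _ = γ := mul_one γ

end Fermat.Agent.CAR.ON
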