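import Fermat.Agent.CAR.ON.Table
import Fermat.Agent.CAR.ON.Glue
import Fermat.Agent.CAR.ON.Mid
import Fermat.Agent.CAR.ON.Finrank
import Fermat.Agent.TOR.T1.OnE
import Fermat.Agent.TOR.T1.SpansFin

/-!
# CAR / ON : assembly : `bas` is orthonormal for the sup norm of the `(q+1)`-family and spans `F` over `K(t)`
-/

set_option autoImplicit false

open Polynomial ModularCurve AlgebraicCurve

noncomputable section

namespace Fermat.Agent.CAR.ON

open Fermat.Agent.GAL.KL Fermat.Agent.GAL.KLC Fermat.Agent.TOR.T1 Fermat.Agent.CAR.KLm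
open Fermat.Agent.S24.FF Fermat.Agent.GAL

variable {K F₀ F k Γ' Γ₀ I : Type*} [Field K] [Field F₀] [Field F] [Algebra K F₀]
  [Algebra K F] [Field k] [LinearOrderedCommGroupWithZero Γ'] [LinearOrderedCommGroupWithZero Γ₀]
  {v₀ : Valuation F₀ Γ'} {ρ₀ : v₀.integer →+* LaurentSeries k}
  {v : Idx I → Valuation F Γ₀} {ρ : ∀ i, (v i).integer →+* LaurentSeries k}
  {α β γ : F₀ →ₐ[K] F} {q : ℕ} [NeZero q] {x x' : F₀} {ξ ξ' : LaurentSeries k} {m : ℕ}

/-- the reduction of `x^(j/m) x'^(j%m)`. -/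
def redE (ξ ξ' : LaurentSeries k) (m : ℕ) (j : ℕ) : LaurentSeries k := ξ ^ (j / m) * ξ' ^ (j % m)

theorem redE_ne_zero (X : XDat K ρ₀ x x' ξ ξ' m q) (j : ℕ) : redE ξ ξ' m j ≠ 0 :=
  mul_ne_zero (pow_ne_zero _ (xi_ne_zero X)) (pow_ne_zero _ X.ne')

/-- generic: a family `σ (x^(j/m) x'^(j%m))`, `j < (Q+1) m`, is `ON` for `u` as soon as `σ` is compatible with the reductions and
`t` reduces to `ξ^(Q+1)`. -/
theorem on_e1_of {u : Valuation F Γ₀} {r : u.integer →+* LaurentSeries k} (hr : IsRed K u r)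
    (X : XDat K ρ₀ x x' ξ ξ' m q) {σ : F₀ →ₐ[K] F} (hσ : ∀ c φ, Rd ρ₀ c φ → Rd r (σ c) φ) {t : F}
    (Q : ℕ) (ht : Rd r t (ξ ^ (Q + 1))) : ON K u t (e1 σ x x' m Q) := by
  refine on_of_orders hr ht (D := (Q + 1) * m) (Nat.mul_pos (Nat.succ_pos Q) X.m_pos)
    (order_pow_xi X (Q + 1)) (e1 σ x x' m Q)
    (fun j => redE ξ ξ' m j) (fun j => hσ _ _ (OnE_rd X _ _))
    (fun j => redE_ne_zero X j) ?_
  intro i j hij
  rw [redE, redE, OnE_order X, OnE_order X] at hij
  exact Fin.ext (OnE_arith X.m_pos i.2 j.2 hij)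

theorem v_eq_one_of_sub_lt {u : Valuation F Γ₀} {E : F} (h : u (E - 1) < 1) : u E = 1 := by
  have h1 : E = 1 + (E - 1) := by ring
  rw [h1, Valuation.map_add_eq_of_lt_left u (by rw [map_one]; exact h), map_one]

theorem Basis_mul_lt {u : Valuation F Γ₀} {a b : F} (ha : u a < 1) (hb : u b ≤ 1) : u (a * b) < 1 := by
  rw [map_mul]
  exact mul_lt_one_of_lt_of_le ha hb

section Main

variable (H : Lvl2 K ρ₀ v ρ α β γ q) (X : XDat K ρ₀ x x' ξ ξ' m q)
  {δ : F} {ψ : LaurentSeries k} {cc : I → k} {Eo Ez Em : F}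
include H X

/-- **the family `bas` is orthonormal.** -/
theorem onm_bas [Fintype I] (Dl : Del v ρ δ ψ cc) (hI : q - 1 ≤ Fintype.card I)
    (E : Idem v δ (q - 1) Eo Ez Em) :
    ONm K v oo (tt α γ x) (bas α γ x x' m q δ Eo Ez Em) := by
  have St := setup H X
  have hA : ONs K v oo {oo} (tt α γ x) (fun j => Eo * e1 α x x' m (q * q) j) :=
    (ons_singleton St oo (on_e1_of (H.red oo) X H.ooα (q * q) (rd_tt_oo H X))).mul_unit
      (by rintro i rfl; exact v_eq_one_of_sub_lt E.oo_oo)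
  have hB : ONs K v oo {zr} (tt α γ x) (fun j => Ez * e1 γ x x' m (q * q) j) :=
    (ons_singleton St zr (on_e1_of (H.red zr) X H.zrγ (q * q) (rd_tt_zr H X))).mul_unit
      (by rintro i rfl; exact v_eq_one_of_sub_lt E.zr_zr)
  have hC : ONs K v oo (Set.range (md : I → Idx I)) (tt α γ x)
      (fun j => Em * prodFam (e1 α x x' m 1) δ (q - 1) j) :=
    (ons_mid St H.red (const_md H) (rd_tt_md H X) (D := (1 + 1) * m)
      (Nat.mul_pos (Nat.succ_pos 1) X.m_pos) (order_pow_xi X (1 + 1)) (e1 α x x' m 1)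
      (fun j => redE ξ ξ' m j) (fun i s => H.mdα i _ _ (OnE_rd X _ _))
      (fun j => redE_ne_zero X j)
      (by
        intro i j hij
        rw [redE, redE, OnE_order X, OnE_order X] at hij
        exact Fin.ext (OnE_arith X.m_pos i.2 j.2 hij)) Dl hI).mul_unit
      (by rintro _ ⟨i, rfl⟩; exact v_eq_one_of_sub_lt (E.md_md i))
  have hAB := ons_glue St hA hB
    (by rintro i rfl j; exact Basis_mul_lt E.oo_zr (H.zrα _ _ (OnE_rd X _ _)).le_one)
    (by rintro i rfl j; exact Basis_mul_lt E.zr_oo (H.ooγ _ _ (OnE_rd X _ _)).le_one)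
  have hABC := ons_glue St hAB hC
    (by
      rintro _ ⟨i, rfl⟩ j
      refine Fin.addCases (fun j => ?_) (fun j => ?_) j
      · rw [Fin.append_left]
        exact Basis_mul_lt (E.oo_md i) (H.mdα i _ _ (OnE_rd X _ _)).le_one
      · rw [Fin.append_right]
        exact Basis_mul_lt (E.zr_md i) (H.mdγ i _ _ (OnE_rd X _ _)).le_one)
    (by
      rintro i (rfl | rfl) j
      · have h1 : Em * prodFam (e1 α x x' m 1) δ (q - 1) j =
            (Em * δ ^ (j.divNat : ℕ)) * e1 α x x' m 1 j.modNat := by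
          rw [prodFam]; ring
        rw [h1]
        exact Basis_mul_lt (E.md_oo _ j.divNat.2) (H.ooα _ _ (OnE_rd X _ _)).le_one
      · have h1 : Em * prodFam (e1 α x x' m 1) δ (q - 1) j =
            (Em * δ ^ (j.divNat : ℕ)) * e1 α x x' m 1 j.modNat := by
          rw [prodFam]; ring
        rw [h1]
        exact Basis_mul_lt (E.md_zr _ j.divNat.2) (H.zrα _ _ (OnE_rd X _ _)).le_one)
  have huniv : (({oo} ∪ {zr} : Set (Idx I)) ∪ Set.range (md : I → Idx I)) = Set.univ := by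
    ext i
    simp only [Set.mem_union, Set.mem_singleton_iff, Set.mem_range, Set.mem_univ, iff_true]
    rcases i with _ | _ | i
    · exact Or.inl (Or.inl rfl)
    · exact Or.inl (Or.inr rfl)
    · exact Or.inr ⟨i, rfl⟩
  rw [huniv] at hABC
  exact ons_univ_iff.1 hABC

theorem transcendental_x : Transcendental K x := by
  have h1 : Transcendental K (α x) := by
    obtain ⟨h1, h2⟩ := rd_oo_α H X
    have hG : Gauss K (v oo) (α x) := by
      refine gauss_of_isRed (H.red oo) h1 ?_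
      rw [h2, X.ox]
      have := X.m_pos
      omega
    rw [transcendental_iff]
    exact fun p hp => hG.inj p hp
  intro h
  exact h1 ((isAlgebraic_algHom_iff α α.toRingHom.injective).2 h)

/-- **the family `bas` spans `F` over `K(t)`.** -/
theorem spans_bas [Fintype I] [IsAlgClosed K] [CharZero K] [IsFF1 K F] (Dl : Del v ρ δ ψ cc)
    (hI : q - 1 ≤ Fintype.card I) (E : Idem v δ (q - 1) Eo Ez Em)
    (hα : finrankAlong K α = q * (q + 1)) (hγ : finrankAlong K γ = q * (q + 1)) :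
    Spans K (tt α γ x) (bas α γ x x' m q δ Eo Ez Em) := by
  have hq : 0 < q := Nat.pos_of_ne_zero (NeZero.ne q)
  have hx := transcendental_x H X
  have hinjα : Function.Injective α := α.toRingHom.injective
  have hinjγ : Function.Injective γ := γ.toRingHom.injective
  have hαx : Transcendental K (α x) := fun h => hx ((isAlgebraic_algHom_iff α hinjα).1 h)
  have hγx : Transcendental K (γ x) := fun h => hx ((isAlgebraic_algHom_iff γ hinjγ).1 h)
  refine spans_of_finrank_le (transcendental_tt H X) _ ((onm_bas H X Dl hI E).inj (setup H X)) ?_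
  have h1 := finrank_mul_le hαx hγx (transcendental_tt H X)
  have h2 := finrank_adjoin_map_le α hα (Nat.mul_pos hq (Nat.succ_pos q)) hx _ X.spans
  have h3 := finrank_adjoin_map_le γ hγ (Nat.mul_pos hq (Nat.succ_pos q)) hx _ X.spans
  have h4 : q * (q + 1) * m + q * (q + 1) * m =
      ((q * q + 1) * m + (q * q + 1) * m) + (q - 1) * ((1 + 1) * m) := by
    obtain ⟨r, rfl⟩ : ∃ r, q = r + 1 := ⟨q - 1, by omega⟩
    simp only [Nat.add_sub_cancel]
    ring
  have h5 : tt α γ x = α x * γ x := rfl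
  rw [h5]
  omega

/-! ### the reductions of the basis vectors -/

omit X in
theorem rd_of_sub_one_lt (i : Idx I) {E : F} (h : v i (E - 1) < 1) : Rd (ρ i) E 1 :=
  Rd.one.of_sub_lt (H.red i) h

omit X in
theorem rd_mul_of_lt (i : Idx I) {a b : F} (ha : v i a < 1) (hb : v i b ≤ 1) :
    Rd (ρ i) (a * b) 0 := (rd_zero_iff (H.red i)).2 (Basis_mul_lt ha hb)

/-- reductions at `∞`: `(ξ^r ξ'^i ; 0 ; 0)`. -/
theorem rd_bas_oo (E : Idem v δ (q - 1) Eo Ez Em)
    (j : Fin (((q * q + 1) * m + (q * q + 1) * m) + (q - 1) * ((1 + 1) * m))) :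
    Rd (ρ oo) (bas α γ x x' m q δ Eo Ez Em j)
      (Fin.append (Fin.append (fun j : Fin ((q * q + 1) * m) => redE ξ ξ' m j)
        (fun _ : Fin ((q * q + 1) * m) => 0)) (fun _ : Fin ((q - 1) * ((1 + 1) * m)) => 0) j) := by
  unfold bas
  refine Fin.addCases (fun j => ?_) (fun j => ?_) j
  · rw [Fin.append_left, Fin.append_left]
    refine Fin.addCases (fun j => ?_) (fun j => ?_) j
    · rw [Fin.append_left, Fin.append_left]
      have h := (rd_of_sub_one_lt H oo E.oo_oo).mul (H.ooα _ _ (OnE_rd X ((j : ℕ) / m) ((j : ℕ) % m)))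
      rwa [one_mul] at h
    · rw [Fin.append_right, Fin.append_right]
      exact rd_mul_of_lt H oo E.zr_oo (H.ooγ _ _ (OnE_rd X _ _)).le_one
  · rw [Fin.append_right, Fin.append_right]
    have h1 : Em * prodFam (e1 α x x' m 1) δ (q - 1) j =
        (Em * δ ^ (j.divNat : ℕ)) * e1 α x x' m 1 j.modNat := by
      rw [prodFam]; ring
    rw [h1]
    exact rd_mul_of_lt H oo (E.md_oo _ j.divNat.2) (H.ooα _ _ (OnE_rd X _ _)).le_one

/-- reductions at `0`: `(0 ; ξ^r ξ'^i ; 0)`. -/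
theorem rd_bas_zr (E : Idem v δ (q - 1) Eo Ez Em)
    (j : Fin (((q * q + 1) * m + (q * q + 1) * m) + (q - 1) * ((1 + 1) * m))) :
    Rd (ρ zr) (bas α γ x x' m q δ Eo Ez Em j)
      (Fin.append (Fin.append (fun _ : Fin ((q * q + 1) * m) => 0)
        (fun j : Fin ((q * q + 1) * m) => redE ξ ξ' m j))
        (fun _ : Fin ((q - 1) * ((1 + 1) * m)) => 0) j) := by
  unfold bas
  refine Fin.addCases (fun j => ?_) (fun j => ?_) j
  · rw [Fin.append_left, Fin.append_left]
    refine Fin.addCases (fun j => ?_) (fun j => ?_) j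
    · rw [Fin.append_left, Fin.append_left]
      exact rd_mul_of_lt H zr E.oo_zr (H.zrα _ _ (OnE_rd X _ _)).le_one
    · rw [Fin.append_right, Fin.append_right]
      have h := (rd_of_sub_one_lt H zr E.zr_zr).mul (H.zrγ _ _ (OnE_rd X ((j : ℕ) / m) ((j : ℕ) % m)))
      rwa [one_mul] at h
  · rw [Fin.append_right, Fin.append_right]
    have h1 : Em * prodFam (e1 α x x' m 1) δ (q - 1) j =
        (Em * δ ^ (j.divNat : ℕ)) * e1 α x x' m 1 j.modNat := by
      rw [prodFam]; ring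
    rw [h1]
    exact rd_mul_of_lt H zr (E.md_zr _ j.divNat.2) (H.zrα _ _ (OnE_rd X _ _)).le_one

/-- reductions at `md i`: `(0 ; 0 ; ξ^r ξ'^s (cc i ψ)^j)`. -/
theorem rd_bas_md (Dl : Del v ρ δ ψ cc) (E : Idem v δ (q - 1) Eo Ez Em) (i : I)
    (j : Fin (((q * q + 1) * m + (q * q + 1) * m) + (q - 1) * ((1 + 1) * m))) :
    Rd (ρ (md i)) (bas α γ x x' m q δ Eo Ez Em j)
      (Fin.append (Fin.append (fun _ : Fin ((q * q + 1) * m) => 0)
        (fun _ : Fin ((q * q + 1) * m) => 0))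
        (fun j : Fin ((q - 1) * ((1 + 1) * m)) =>
          redE ξ ξ' m (j.modNat : ℕ) * (HahnSeries.C (cc i) * ψ) ^ (j.divNat : ℕ)) j) := by
  unfold bas
  refine Fin.addCases (fun j => ?_) (fun j => ?_) j
  · rw [Fin.append_left, Fin.append_left]
    refine Fin.addCases (fun j => ?_) (fun j => ?_) j
    · rw [Fin.append_left, Fin.append_left]
      exact rd_mul_of_lt H (md i) (E.oo_md i) (H.mdα i _ _ (OnE_rd X _ _)).le_one
    · rw [Fin.append_right, Fin.append_right]
      exact rd_mul_of_lt H (md i) (E.zr_md i) (H.mdγ i _ _ (OnE_rd X _ _)).le_one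
  · rw [Fin.append_right, Fin.append_right]
    have h := (rd_of_sub_one_lt H (md i) (E.md_md i)).mul
      ((H.mdα i _ _ (OnE_rd X ((j.modNat : ℕ) / m) ((j.modNat : ℕ) % m))).mul
        ((Dl.rd i).pow (j.divNat : ℕ)))
    rwa [one_mul] at h

/-- **summary**: everything `KLm.pow_of_near_one` needs from the level structure. -/
theorem exists_basis [Fintype I] [IsAlgClosed K] [CharZero K] [IsFF1 K F] (hq : 2 ≤ q)
    (hA : ∀ i, Arch (v i)) (Dl : Del v ρ δ ψ cc) (hI : q - 1 ≤ Fintype.card I)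
    (hα : finrankAlong K α = q * (q + 1)) (hγ : finrankAlong K γ = q * (q + 1)) :
    ∃ Em : F, Idem v δ (q - 1) (epsOo α β γ q x) (epsZr α β γ q x) Em ∧
      ONm K v oo (tt α γ x) (bas α γ x x' m q δ (epsOo α β γ q x) (epsZr α β γ q x) Em) ∧
      Spans K (tt α γ x) (bas α γ x x' m q δ (epsOo α β γ q x) (epsZr α β γ q x) Em) := by
  obtain ⟨Em, E⟩ := exists_idem H X hq hA δ (q - 1)
  exact ⟨Em, E, onm_bas H X Dl hI E, spans_bas H X Dl hI E hα hγ⟩

end Main

end Fermat.Agent.CAR.ON
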