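import Fermat.Agent.CAR.ON.Res

/-!
# CAR / ON : package ON-H : the residue field at the middle indices

* at `∞` and at `0` the residue field is the residue field `κ' = red F₀` of level `M'`;
* at the middle indices the residue field is BIGGER (`κ'(ψ)`), but an element which has THE SAME reduction at all `md i`
  (e.g. an element fixed by inertia) reduces into `κ'`.
-/

set_option autoImplicit false

open Polynomial ModularCurve AlgebraicCurve

noncomputable section

namespace Fermat.Agent.CAR.ON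

open Fermat.Agent.GAL.KL Fermat.Agent.GAL.KLC Fermat.Agent.TOR.T1 Fermat.Agent.CAR.KLm
open Fermat.Agent.S24.FF Fermat.Agent.GAL

variable {K F₀ F k Γ' Γ₀ I : Type*} [Field K] [Field F₀] [Field F] [Algebra K F₀]
  [Algebra K F] [Field k] [LinearOrderedCommGroupWithZero Γ'] [LinearOrderedCommGroupWithZero Γ₀]
  {v₀ : Valuation F₀ Γ'} {ρ₀ : v₀.integer →+* LaurentSeries k}
  {v : Idx I → Valuation F Γ₀} {ρ : ∀ i, (v i).integer →+* LaurentSeries k}
  {α β γ : F₀ →ₐ[K] F} {q : ℕ} [NeZero q] {x x' : F₀} {ξ ξ' : LaurentSeries k} {m : ℕ}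

section Main

variable (H : Lvl2 K ρ₀ v ρ α β γ q) (X : XDat K ρ₀ x x' ξ ξ' m q)
  {δ : F} {ψ : LaurentSeries k} {cc : I → k}
include H X

/-- **elements with the same reduction at all middle indices reduce into `κ'`.**
Proof.  `E := resF H.red₀`.  As above replace `z` by `e * z` (`approx3`, targets `(0, 1, 0)`): wlog `NN v z ≤ 1`.
`Spans`: `D(t) z = ∑_j p_j(t) bas_j`, `D ≠ 0`; divide by a constant `a` with `|a| = |D(t)|` (`Gauss.exists_const`, see the proof of
`FQ2.rd_mem_of_NN_le`): wlog `v i (D(t)) = 1`; `ONm` gives `|p_j(t)| ≤ 1`.  By `exists_rd_aeval` (Mid.lean; `const_md H`, `rd_tt_md`) `D(t)` and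
the `p_j(t)` reduce to `D̄ ≠ 0`, `p̄_j`, the same at all `md i`, and these lie in `E` (`FQ2.rd_aeval_mem`, `τ = ξ^(1+1)`).  Reducing at `md i`
(`rd_bas_md`, `Rd.sum`, `Fin.sum_univ_add`, split `Fin ((q-1) * ((1+1)*m))` by `divNat`, `modNat`):
`D̄ φ = ∑_{j' < q-1} A_{j'} (C (cc i) * ψ)^{j'}`, `A_{j'} = ∑_s p̄_{(j',s)} redE s ∈ E`.  The polynomial
`∑_{j'} (A_{j'} ψ^{j'}) X^{j'} - C (D̄ φ)` has degree `< q - 1 ≤ #I` and the distinct roots `C (cc i)`: it is `0`; coefficient of `X^0`: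
`D̄ φ = A_0`, so `φ = A_0 / D̄ ∈ E`. -/
theorem res_md [Fintype I] [IsAlgClosed K] [CharZero K] [IsFF1 K F] (hq : 2 ≤ q)
    (hA : ∀ i, Arch (v i)) (Dl : Del v ρ δ ψ cc) (hI : q - 1 ≤ Fintype.card I)
    (hα : finrankAlong K α = q * (q + 1)) (hγ : finrankAlong K γ = q * (q + 1))
    {z : F} {φ : LaurentSeries k} (h : ∀ i, Rd (ρ (md i)) z φ) : ∃ c, Rd ρ₀ c φ := by
  classical
  obtain ⟨Em, E, hON, hSp⟩ := exists_basis H X hq hA Dl hI hα hγ
  have St := setup H X
  have hcard : 0 < Fintype.card I := by omega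
  obtain ⟨i₀⟩ : Nonempty I := Fintype.card_pos_iff.1 hcard
  -- normalisation: wlog `NN v z ≤ 1`
  obtain ⟨γ', hγ', hle, hs⟩ := FQ2.Approx_exists_small
    (Finset.univ.image fun j : Idx I => v j z) (one_ne_zero : (1 : Γ₀) ≠ 0)
  have hs' : ∀ j, γ' * v j z ≤ 1 := fun j =>
    hs _ (Finset.mem_image.2 ⟨j, Finset.mem_univ _, rfl⟩)
  obtain ⟨e, he1, he2, he3⟩ := approx3 H X hq hA 0 1 0 hγ'
  rw [sub_zero] at he1 he3
  have hez : ∀ i, Rd (ρ (md i)) (e * z) φ := by
    intro i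
    have := (Rd.one.of_sub_lt (H.red (md i)) (lt_of_lt_of_le (he2 i) hle)).mul (h i)
    rwa [one_mul] at this
  have hNN : NN v (e * z) ≤ 1 := by
    rw [NN_le_iff]
    rintro (_ | _ | i)
    · rw [map_mul]; exact (FQ2.Approx_mul_lt he1 (hs' _) one_ne_zero).le
    · rw [map_mul]; exact (FQ2.Approx_mul_lt he3 (hs' _) one_ne_zero).le
    · exact (hez i).le_one
  -- expansion in the basis, rescaled
  obtain ⟨D, p, hD, hDp⟩ := hSp (e * z)
  have hD0 : aeval (tt α γ x) D ≠ 0 := fun h => hD ((St.G oo).inj D h)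
  obtain ⟨a, ha⟩ := (St.G oo).exists_const D
  have ha0 : algebraMap K F a ≠ 0 := by
    intro h
    rw [h, map_zero, map_eq_zero] at ha
    exact hD0 ha
  have ha0' : a ≠ 0 := by
    rintro rfl
    exact ha0 (map_zero _)
  set D' : K[X] := C a⁻¹ * D with hD'
  set p' : _ → K[X] := fun j => C a⁻¹ * p j with hp'
  have hvD' : v oo (aeval (tt α γ x) D') = 1 := by
    rw [hD', map_mul, aeval_C, map_mul, ha, ← map_mul, ← map_mul, inv_mul_cancel₀ ha0', map_one,
      map_one]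
  have hDp' : aeval (tt α γ x) D' * (e * z) = comb K (tt α γ x) p'
      (bas α γ x x' m q δ (epsOo α β γ q x) (epsZr α β γ q x) Em) := by
    rw [hp', comb_smul, ← hDp, hD', map_mul, mul_assoc]
  have hNN' : NN v (comb K (tt α γ x) p'
      (bas α γ x x' m q δ (epsOo α β γ q x) (epsZr α β γ q x) Em)) ≤ 1 := by
    rw [← hDp', St.NN_aeval_mul oo, hvD', one_mul]
    exact hNN
  have hpj : ∀ j, v oo (aeval (tt α γ x) (p' j)) ≤ 1 := (hON p' 1).1 hNN'
  -- reductions
  obtain ⟨σ, hσ⟩ := exists_rd_aeval St H.red (const_md H) (rd_tt_md H X) D' hvD'.le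
  choose π hπ using fun j => exists_rd_aeval St H.red (const_md H) (rd_tt_md H X) (p' j) (hpj j)
  have hσ0 : σ ≠ 0 := by
    rintro rfl
    have := (rd_zero_iff (H.red (md i₀))).1 (hσ i₀)
    rw [St.eq_aeval (md i₀) oo, hvD'] at this
    exact lt_irrefl _ this
  set EE := resF H.red₀ with hEE
  have hC : ∀ c : k, HahnSeries.C c ∈ EE.toSubring := C_mem_resF H.red₀
  have hτ : ξ ^ (1 + 1) ∈ EE.toSubring := EE.pow_mem ⟨x, X.rx⟩ _
  have hσE : σ ∈ EE :=
    FQ2.rd_aeval_mem (H.red (md i₀)) (St.G (md i₀)) (rd_tt_md H X i₀) EE.toSubring hC hτ D' (hσ i₀)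
  have hπE : ∀ j, π j ∈ EE := fun j =>
    FQ2.rd_aeval_mem (H.red (md i₀)) (St.G (md i₀)) (rd_tt_md H X i₀) EE.toSubring hC hτ (p' j)
      (hπ j i₀)
  -- the relation at `md i`
  have hrel : ∀ i, σ * φ = ∑ j : Fin ((q - 1) * ((1 + 1) * m)),
      π (Fin.natAdd _ j) *
        (redE ξ ξ' m (j.modNat : ℕ) * (HahnSeries.C (cc i) * ψ) ^ (j.divNat : ℕ)) := by
    intro i
    have e1 : Rd (ρ (md i)) (aeval (tt α γ x) D' * (e * z)) (σ * φ) := (hσ i).mul (hez i)
    have e2 := Rd.sum (ρ := ρ (md i)) Finset.univ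
      fun j _ => (hπ j i).mul (rd_bas_md H X Dl E i j)
    rw [hDp'] at e1
    rw [e1.unique e2, Fin.sum_univ_add]
    simp only [Fin.append_left, Fin.append_right]
    rw [Finset.sum_eq_zero, zero_add]
    intro j _
    refine Fin.addCases (fun j => ?_) (fun j => ?_) j
    · rw [Fin.append_left, mul_zero]
    · rw [Fin.append_right, mul_zero]
  -- Vandermonde
  set P : (LaurentSeries k)[X] := (∑ j : Fin ((q - 1) * ((1 + 1) * m)),
      Polynomial.C (π (Fin.natAdd _ j) * redE ξ ξ' m (j.modNat : ℕ) * ψ ^ (j.divNat : ℕ)) *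
        Polynomial.X ^ (j.divNat : ℕ)) - Polynomial.C (σ * φ) with hP
  have hP0 : P = 0 := by
    refine Polynomial.eq_zero_of_natDegree_lt_card_of_eval_eq_zero P
      (f := fun i => HahnSeries.C (cc i)) ?_ ?_ ?_
    · exact fun i j hij => Dl.inj (HahnSeries.C_injective hij)
    · intro i
      rw [hP, eval_sub, eval_C, eval_finsetSum, hrel i, sub_eq_zero]
      refine Finset.sum_congr rfl fun j _ => ?_
      rw [eval_mul, eval_C, eval_pow, eval_X, mul_pow]
      ring
    · refine lt_of_le_of_lt (b := q - 2) ?_ (by omega)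
      refine (natDegree_sub_le _ _).trans (max_le ?_ (by rw [natDegree_C]; exact Nat.zero_le _))
      refine natDegree_sum_le_of_forall_le _ _ fun j _ => ?_
      refine (natDegree_C_mul_X_pow_le _ _).trans ?_
      have := j.divNat.2
      omega
  have hc0 := congrArg (fun P => Polynomial.coeff P 0) hP0
  simp only [hP, coeff_sub, finsetSum_coeff, coeff_C_mul_X_pow, coeff_C_zero, coeff_zero] at hc0
  rw [sub_eq_zero] at hc0
  have e3 : σ * φ ∈ EE := by
    rw [← hc0]
    refine EE.sum_mem fun j _ => ?_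
    split_ifs with hj
    · rw [← hj, pow_zero, mul_one]
      exact EE.mul_mem (hπE _) (redE_mem_resF X H.red₀ _)
    · exact EE.zero_mem
  have hφ : φ = σ⁻¹ * (σ * φ) := by rw [← mul_assoc, inv_mul_cancel₀ hσ0, one_mul]
  have hfin : φ ∈ EE := by
    rw [hφ]
    exact EE.mul_mem (EE.inv_mem hσE) e3
  exact hfin

end Main

end Fermat.Agent.CAR.ON
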