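import Fermat.Agent.CAR.KLm.Basic
import Fermat.Agent.TOR.T1.Defs

/-!
# CAR / ON : the abstract `(q+1)`-family of Gauss valuations at level `q² M'`.  Definitions (no sorry).

ABSTRACT THREE-LEVEL SETTING.  `K = ℚ̄`, `F₀ = ` function field of `X₀(M')`, `F = ` function field of
`X₀(q² M')`, `α β γ : F₀ → F` the three degeneracy maps `f(τ)`, `f(qτ)`, `f(q²τ)`.
Index type `Idx I = Option (Option I)` (`I = (ZMod q)ˣ` in the application):
`oo = none` (cusp `∞`), `zr = some none` (cusp `0`, `v zr = v oo ∘ w_{q²}`), `md c = some (some c)` (middle cusps).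
`v i` Gauss valuation at the cusp `i`, `ρ i` its reduction map into `k((Q))`; `T1.Rd (ρ i) z φ` = "`z` is `v i`-integral and reduces to `φ`".

TABLE of reductions (`V = qExpand k q`), for `c ∈ F₀` reducing to `φ`:

            α c      β c     γ c
    oo      φ        V φ     V V φ
    md i    φ        V φ     φ
    zr      V V φ    V φ     φ

and `δ = (γ a₀ - α a₀)/(ζ - 1)` reduces at `md i` to `cc i * ψ`, `ψ = θ (red a₀) ≠ 0`.
`t := α x * γ x = T1.tt α γ x`.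
-/

set_option autoImplicit false

open Polynomial ModularCurve AlgebraicCurve

noncomputable section

namespace Fermat.Agent.CAR.ON

open Fermat.Agent.GAL.KL Fermat.Agent.GAL.KLC Fermat.Agent.TOR.T1 Fermat.Agent.CAR.KLm

/-- the index type of the family of valuations. -/
abbrev Idx (I : Type*) := Option (Option I)

/-- the cusp `∞`. -/
abbrev oo {I : Type*} : Idx I := none

/-- the cusp `0`. -/
abbrev zr {I : Type*} : Idx I := some none

/-- the middle cusps. -/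
abbrev md {I : Type*} (i : I) : Idx I := some (some i)

variable (K : Type*) {F₀ F k Γ' Γ₀ I : Type*} [Field K] [Field F₀] [Field F] [Algebra K F₀]
  [Algebra K F] [Field k] [LinearOrderedCommGroupWithZero Γ'] [LinearOrderedCommGroupWithZero Γ₀]

/-- the three-level datum. -/
structure Lvl2 {v₀ : Valuation F₀ Γ'} (ρ₀ : v₀.integer →+* LaurentSeries k)
    (v : Idx I → Valuation F Γ₀) (ρ : ∀ i, (v i).integer →+* LaurentSeries k)
    (α β γ : F₀ →ₐ[K] F) (q : ℕ) [NeZero q] : Prop where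
  red₀ : IsRed K v₀ ρ₀
  red : ∀ i, IsRed K (v i) (ρ i)
  eqL : ∀ (i j : Idx I) (a : K), v i (algebraMap K F a) = v j (algebraMap K F a)
  ooα : ∀ c φ, Rd ρ₀ c φ → Rd (ρ oo) (α c) φ
  ooβ : ∀ c φ, Rd ρ₀ c φ → Rd (ρ oo) (β c) (qExpand k q φ)
  ooγ : ∀ c φ, Rd ρ₀ c φ → Rd (ρ oo) (γ c) (qExpand k q (qExpand k q φ))
  zrα : ∀ c φ, Rd ρ₀ c φ → Rd (ρ zr) (α c) (qExpand k q (qExpand k q φ))
  zrβ : ∀ c φ, Rd ρ₀ c φ → Rd (ρ zr) (β c) (qExpand k q φ)
  zrγ : ∀ c φ, Rd ρ₀ c φ → Rd (ρ zr) (γ c) φ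
  mdα : ∀ i c φ, Rd ρ₀ c φ → Rd (ρ (md i)) (α c) φ
  mdβ : ∀ i c φ, Rd ρ₀ c φ → Rd (ρ (md i)) (β c) (qExpand k q φ)
  mdγ : ∀ i c φ, Rd ρ₀ c φ → Rd (ρ (md i)) (γ c) φ

variable {K}

/-- the element `δ` separating the middle cusps: `red_{md i} δ = cc i * ψ`. -/
structure Del (v : Idx I → Valuation F Γ₀) (ρ : ∀ i, (v i).integer →+* LaurentSeries k)
    (δ : F) (ψ : LaurentSeries k) (cc : I → k) : Prop where
  inj : Function.Injective cc
  ne : ψ ≠ 0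
  rd : ∀ i, Rd (ρ (md i)) δ (HahnSeries.C (cc i) * ψ)

/-- `ε_∞ = (β x - (γ x)^q) / ((α x)^q - (α x)^(q³)) ≡ (1, 0, 0)`. -/
def epsOo (α β γ : F₀ →ₐ[K] F) (q : ℕ) (x : F₀) : F :=
  (β x - γ x ^ q) / (α x ^ q - α x ^ (q * q * q))

/-- `ε_0 = (β x - (α x)^q) / ((γ x)^q - (γ x)^(q³)) ≡ (0, 0, 1)`. -/
def epsZr (α β γ : F₀ →ₐ[K] F) (q : ℕ) (x : F₀) : F :=
  (β x - α x ^ q) / (γ x ^ q - γ x ^ (q * q * q))

/-- `ε_mid = 1 - ε_∞ - ε_0 ≡ (0, 1, 0)`. -/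
def epsMd (α β γ : F₀ →ₐ[K] F) (q : ℕ) (x : F₀) : F :=
  1 - epsOo α β γ q x - epsZr α β γ q x

/-- approximate idempotents; `Em` is so small at `∞` and `0` that it kills the poles of `δ ^ j`, `j < J`. -/
structure Idem (v : Idx I → Valuation F Γ₀) (δ : F) (J : ℕ) (Eo Ez Em : F) : Prop where
  oo_oo : v oo (Eo - 1) < 1
  oo_zr : v zr Eo < 1
  oo_md : ∀ i, v (md i) Eo < 1
  zr_oo : v oo Ez < 1
  zr_zr : v zr (Ez - 1) < 1
  zr_md : ∀ i, v (md i) Ez < 1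
  md_oo : ∀ j < J, v oo (Em * δ ^ j) < 1
  md_zr : ∀ j < J, v zr (Em * δ ^ j) < 1
  md_md : ∀ i, v (md i) (Em - 1) < 1

/-- product family `a_s δ^j`, `s < d`, `j < J`. -/
def prodFam {d : ℕ} (a : Fin d → F) (δ : F) (J : ℕ) (j : Fin (J * d)) : F :=
  a j.modNat * δ ^ (j.divNat : ℕ)

/-- the orthonormal basis over `K[t]`, `t = α x * γ x`, of cardinality `2 m q (q + 1)`:
`Eo α(x^r x'^i)`, `Ez γ(x^r x'^i)` (`r ≤ q²`, `i < m`), `Em α(x^r x'^i) δ^j` (`r ≤ 1`, `i < m`, `j < q - 1`). -/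
def bas (α γ : F₀ →ₐ[K] F) (x x' : F₀) (m q : ℕ) (δ Eo Ez Em : F) :
    Fin (((q * q + 1) * m + (q * q + 1) * m) + (q - 1) * ((1 + 1) * m)) → F :=
  Fin.append
    (Fin.append (fun j => Eo * e1 α x x' m (q * q) j) (fun j => Ez * e1 γ x x' m (q * q) j))
    (fun j => Em * prodFam (e1 α x x' m 1) δ (q - 1) j)

variable (K) in
/-- orthonormality over `K[t]` for the sup norm over a subset `S` of the index set (`o` = base index). -/
def ONs {ι : Type*} (v : ι → Valuation F Γ₀) (o : ι) (S : Set ι) (t : F) {d : ℕ} (e : Fin d → F) :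
    Prop :=
  ∀ (p : Fin d → K[X]) (γ : Γ₀), (∀ i ∈ S, v i (comb K t p e) ≤ γ) ↔ ∀ j, v o (aeval t (p j)) ≤ γ

end Fermat.Agent.CAR.ON
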