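import Fermat.Agent.CAR.ON.Basis
import Fermat.Agent.CAR.KLm.Main

/-!
# CAR / ON : the global step at level `q² M'` : `KLm.pow_of_near_one` with all level inputs plugged in
-/

set_option autoImplicit false

open Polynomial ModularCurve AlgebraicCurve

noncomputable section

namespace Fermat.Agent.CAR.ON

open Fermat.Agent.GAL.KL Fermat.Agent.GAL.KLC Fermat.Agent.TOR.T1 Fermat.Agent.CAR.KLm
open Fermat.Agent.S24.FF Fermat.Agent.GAL

variable {K F₀ F k Γ' Γ₀ I : Type*} [Field K] [Field F₀] [Field F] [Algebra K F₀]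
  [Algebra K F] [Field k] [LinearOrderedCommGroupWithZero Γ'] [LinearOrderedCommGroupWithZero Γ₀]
  {v₀ : Valuation F₀ Γ'} {ρ₀ : v₀.integer →+* LaurentSeries k}
  {v : Idx I → Valuation F Γ₀} {ρ : ∀ i, (v i).integer →+* LaurentSeries k}
  {α β γ : F₀ →ₐ[K] F} {q : ℕ} [NeZero q] {x x' : F₀} {ξ ξ' : LaurentSeries k} {m : ℕ}
  {δ : F} {ψ : LaurentSeries k} {cc : I → k}

/-- **the global step.**  If `w ≡ 1` at all `q + 1` valuations and each of the two charts `t`, `t⁻¹` (`t = α x * γ x`) carries ONE section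
`G ≡ 1` of the class of `w`, then `w` is an `n`-th power. -/
theorem pow_of_sections [Fintype I] [IsAlgClosed K] [CharZero K] [IsFF1 K F]
    (H : Lvl2 K ρ₀ v ρ α β γ q) (X : XDat K ρ₀ x x' ξ ξ' m q) (hq : 2 ≤ q)
    (hA : ∀ i, Arch (v i)) (Dl : Del v ρ δ ψ cc) (hI : q - 1 ≤ Fintype.card I)
    (hα : finrankAlong K α = q * (q + 1)) (hγ : finrankAlong K γ = q * (q + 1))
    {n : ℕ} (hn : 0 < n) (hvn : v oo (n : F) = 1) {w : F} (hw : ∀ i, v i (w - 1) < 1)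
    (h0 : ∃ G ∈ II K (tt α γ x) n w, ∀ i, v i (G - 1) < 1)
    (hoo : ∃ G ∈ II K (tt α γ x)⁻¹ n w, ∀ i, v i (G - 1) < 1) :
    ∃ y : F, y ^ n = w := by
  obtain ⟨Em, -, hON, hSp⟩ := exists_basis H X hq hA Dl hI hα hγ
  obtain ⟨G0, hG0, hG0'⟩ := h0
  obtain ⟨Goo, hGoo, hGoo'⟩ := hoo
  exact pow_of_near_one hA (setup H X) _ hON hSp hn hvn (NN_lt_iff.2 hw)
    ⟨G0, hG0, NN_lt_iff.2 hG0'⟩ ⟨Goo, hGoo, NN_lt_iff.2 hGoo'⟩

end Fermat.Agent.CAR.ON
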