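import Fermat.Agent.CAR.ON.Defs
import Fermat.Agent.TOR.T1.Approx

/-!
# CAR / ON : package ON-C : approximate idempotents for a finite family of rank one valuations
-/

set_option autoImplicit false

open Polynomial

noncomputable section

namespace Fermat.Agent.CAR.ON

open Fermat.Agent.GAL.KL Fermat.Agent.TOR.T1

variable {F Γ₀ ι I : Type*} [Field F] [LinearOrderedCommGroupWithZero Γ₀]

/-- `e ≡ 1` on the block `S`, `e ≡ 0` off `S`: then `E = e^N / (e^N + (1-e)^N)`, `N` large, is as close as we want to the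
characteristic function of `S`.  (Copy of `T1.approx_small`; `N := 1 + ∑ N_i`.) -/
theorem approx_fam [Finite ι] {v : ι → Valuation F Γ₀} (hA : ∀ i, Arch (v i)) (S : Set ι) {e : F}
    (h1 : ∀ i ∈ S, v i (e - 1) < 1) (h2 : ∀ i ∉ S, v i e < 1) (g : ι → Γ₀) (hg : ∀ i, g i ≠ 0) :
    ∃ E : F, (∀ i ∈ S, v i (1 - E) < g i) ∧ ∀ i ∉ S, v i E < g i := by
  classical
  cases nonempty_fintype ι
  have hN : ∀ i, ∃ N₀ : ℕ, ∀ N, N₀ ≤ N → (if i ∈ S then v i (1 - e) else v i e) ^ N < g i := by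
    intro i
    by_cases hi : i ∈ S
    · rw [if_pos hi]
      exact Approx_pow_lt (hA i) (by rw [Valuation.map_sub_swap]; exact h1 i hi) (hg i)
    · rw [if_neg hi]
      exact Approx_pow_lt (hA i) (h2 i hi) (hg i)
  choose N₀ hN₀ using hN
  set N := 1 + ∑ i, N₀ i with hNdef
  have hN0 : N ≠ 0 := by omega
  have hle : ∀ i, N₀ i ≤ N := fun i => by
    have := Finset.single_le_sum (f := N₀) (fun _ _ => Nat.zero_le _) (Finset.mem_univ i)
    omega
  have hd : ∀ i, v i (e ^ N + (1 - e) ^ N) = 1 := by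
    intro i
    by_cases hi : i ∈ S
    · have h1' : v i (1 - e) < 1 := by rw [Valuation.map_sub_swap]; exact h1 i hi
      have a1 : v i e = 1 := by
        have : e = 1 + (e - 1) := by ring
        rw [this, Valuation.map_add_eq_of_lt_left (v i) (by rw [map_one]; exact h1 i hi), map_one]
      exact Approx_den a1 h1' hN0
    · have a2 : v i (1 - e) = 1 := by
        rw [sub_eq_add_neg, Valuation.map_add_eq_of_lt_left (v i)
          (by rw [map_one, Valuation.map_neg]; exact h2 i hi), map_one]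
      rw [add_comm]
      exact Approx_den a2 (h2 i hi) hN0
  refine ⟨e ^ N / (e ^ N + (1 - e) ^ N), fun i hi => ?_, fun i hi => ?_⟩
  · have hne : e ^ N + (1 - e) ^ N ≠ 0 := by
      intro h
      have := hd i
      rw [h, map_zero] at this
      exact zero_ne_one this
    have : 1 - e ^ N / (e ^ N + (1 - e) ^ N) = (1 - e) ^ N / (e ^ N + (1 - e) ^ N) := by
      field_simp
      ring
    rw [this, map_div₀, hd i, div_one, map_pow]
    have := hN₀ i N (hle i)
    rwa [if_pos hi] at this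
  · rw [map_div₀, hd i, div_one, map_pow]
    have := hN₀ i N (hle i)
    rwa [if_neg hi] at this

/-- `u E < (max 1 (u δ) ^ J)⁻¹` kills the poles of `δ ^ j`, `j ≤ J`. -/
theorem approx_mul_pow_lt (u : Valuation F Γ₀) {E δ : F} {J j : ℕ} (hj : j ≤ J)
    (h : u E < ((max 1 (u δ)) ^ J)⁻¹) : u (E * δ ^ j) < 1 := by
  have hM1 : (1 : Γ₀) ≤ max 1 (u δ) := le_max_left _ _
  have hne : (max 1 (u δ)) ^ J ≠ 0 :=
    pow_ne_zero _ (ne_of_gt (lt_of_lt_of_le zero_lt_one hM1))
  rw [map_mul, map_pow]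
  calc u E * u δ ^ j ≤ u E * (max 1 (u δ)) ^ J :=
        mul_le_mul_right ((pow_le_pow_left' (le_max_right _ _) j).trans
          (pow_le_pow_right' hM1 hj)) _
    _ < ((max 1 (u δ)) ^ J)⁻¹ * (max 1 (u δ)) ^ J := mul_lt_mul_of_pos_right h (zero_lt_iff.2 hne)
    _ = 1 := inv_mul_cancel₀ hne

/-- `u E < γ / max 1 (u g)` gives `u (E * g) < γ`. -/
theorem approx_mul_lt (u : Valuation F Γ₀) {E g : F} {γ : Γ₀} (h : u E < γ / max 1 (u g)) :
    u (E * g) < γ := by
  have hM1 : (1 : Γ₀) ≤ max 1 (u g) := le_max_left _ _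
  have hne : max 1 (u g) ≠ 0 := ne_of_gt (lt_of_lt_of_le zero_lt_one hM1)
  rw [map_mul]
  calc u E * u g ≤ u E * max 1 (u g) := mul_le_mul_right (le_max_right _ _) _
    _ < γ / max 1 (u g) * max 1 (u g) := mul_lt_mul_of_pos_right h (zero_lt_iff.2 hne)
    _ = γ := div_mul_cancel₀ _ hne

theorem approx_tol_ne_zero (u : Valuation F Γ₀) (g : F) {γ : Γ₀} (hγ : γ ≠ 0) :
    γ / max 1 (u g) ≠ 0 :=
  div_ne_zero hγ (ne_of_gt (lt_of_lt_of_le zero_lt_one (le_max_left _ _)))

/-- the middle idempotent mod `m`. -/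
theorem approx_mid {v : Idx I → Valuation F Γ₀} {eo ez : F}
    (h1 : v oo (eo - 1) < 1) (h2 : v zr eo < 1) (h3 : ∀ i, v (md i) eo < 1)
    (h4 : v oo ez < 1) (h5 : v zr (ez - 1) < 1) (h6 : ∀ i, v (md i) ez < 1) :
    (∀ i ∈ (Set.range md : Set (Idx I)), v i ((1 - eo - ez) - 1) < 1) ∧
      ∀ i ∉ (Set.range md : Set (Idx I)), v i (1 - eo - ez) < 1 := by
  constructor
  · rintro _ ⟨k, rfl⟩
    have : (1 - eo - ez) - 1 = -(eo + ez) := by ring
    rw [this, Valuation.map_neg]
    exact Valuation.map_add_lt _ (h3 k) (h6 k)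
  · intro i hi
    rcases i with _ | _ | k
    · have : 1 - eo - ez = -((eo - 1) + ez) := by ring
      rw [this, Valuation.map_neg]
      exact Valuation.map_add_lt _ h1 h4
    · have : 1 - eo - ez = -((ez - 1) + eo) := by ring
      rw [this, Valuation.map_neg]
      exact Valuation.map_add_lt _ h5 h2
    · exact absurd ⟨k, rfl⟩ hi

/-- existence of the approximate idempotents from three exact ones mod `m`. -/
theorem exists_idem_of [Finite I] {v : Idx I → Valuation F Γ₀} (hA : ∀ i, Arch (v i)) {eo ez : F}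
    (h1 : v oo (eo - 1) < 1) (h2 : v zr eo < 1) (h3 : ∀ i, v (md i) eo < 1)
    (h4 : v oo ez < 1) (h5 : v zr (ez - 1) < 1) (h6 : ∀ i, v (md i) ez < 1) (δ : F) (J : ℕ) :
    ∃ Em : F, Idem v δ J eo ez Em := by
  obtain ⟨hm1, hm2⟩ := approx_mid h1 h2 h3 h4 h5 h6
  obtain ⟨Em, hE1, hE2⟩ := approx_fam hA (Set.range md) hm1 hm2
    (fun i => ((max 1 (v i δ)) ^ J)⁻¹)
    (fun i => inv_ne_zero (pow_ne_zero _
      (ne_of_gt (lt_of_lt_of_le zero_lt_one (le_max_left _ _)))))
  refine ⟨Em, h1, h2, h3, h4, h5, h6, fun j hj => ?_, fun j hj => ?_, fun i => ?_⟩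
  · exact approx_mul_pow_lt _ hj.le (hE2 oo (by rintro ⟨k, hk⟩; cases hk))
  · exact approx_mul_pow_lt _ hj.le (hE2 zr (by rintro ⟨k, hk⟩; cases hk))
  · have := approx_mul_pow_lt _ (Nat.zero_le J) (hE1 (md i) ⟨i, rfl⟩)
    rwa [pow_zero, mul_one, Valuation.map_sub_swap] at this

/-- weak approximation with three targets (the middle valuations are NOT independent: one common target). -/
theorem approx3_of [Finite I] {v : Idx I → Valuation F Γ₀} (hA : ∀ i, Arch (v i)) {eo ez : F}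
    (h1 : v oo (eo - 1) < 1) (h2 : v zr eo < 1) (h3 : ∀ i, v (md i) eo < 1)
    (h4 : v oo ez < 1) (h5 : v zr (ez - 1) < 1) (h6 : ∀ i, v (md i) ez < 1)
    (go gm gz : F) {γ : Γ₀} (hγ : γ ≠ 0) :
    ∃ G : F, v oo (G - go) < γ ∧ (∀ i, v (md i) (G - gm) < γ) ∧ v zr (G - gz) < γ := by
  obtain ⟨hm1, hm2⟩ := approx_mid h1 h2 h3 h4 h5 h6
  obtain ⟨Em, hm1, hm2⟩ := approx_fam hA (Set.range md) hm1 hm2
    (fun i => γ / max 1 (v i gm)) (fun i => approx_tol_ne_zero _ _ hγ)
  obtain ⟨Eo, ho1, ho2⟩ := approx_fam hA ({oo} : Set (Idx I)) (e := eo)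
    (by rintro i rfl; exact h1)
    (by
      intro i hi
      rcases i with _ | _ | k
      · exact absurd rfl hi
      · exact h2
      · exact h3 k)
    (fun i => γ / max 1 (v i go)) (fun i => approx_tol_ne_zero _ _ hγ)
  obtain ⟨Ez, hz1, hz2⟩ := approx_fam hA ({zr} : Set (Idx I)) (e := ez)
    (by rintro i rfl; exact h5)
    (by
      intro i hi
      rcases i with _ | _ | k
      · exact h4
      · exact absurd rfl hi
      · exact h6 k)
    (fun i => γ / max 1 (v i gz)) (fun i => approx_tol_ne_zero _ _ hγ)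
  refine ⟨Eo * go + Em * gm + Ez * gz, ?_, fun k => ?_, ?_⟩
  · have : Eo * go + Em * gm + Ez * gz - go = -((1 - Eo) * go) + Em * gm + Ez * gz := by ring
    rw [this]
    refine Valuation.map_add_lt _ (Valuation.map_add_lt _ ?_ ?_) ?_
    · rw [Valuation.map_neg]
      exact approx_mul_lt _ (ho1 oo rfl)
    · exact approx_mul_lt _ (hm2 oo (by rintro ⟨k, hk⟩; cases hk))
    · exact approx_mul_lt _ (hz2 oo (by intro h; cases h))
  · have : Eo * go + Em * gm + Ez * gz - gm = Eo * go + -((1 - Em) * gm) + Ez * gz := by ring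
    rw [this]
    refine Valuation.map_add_lt _ (Valuation.map_add_lt _ ?_ ?_) ?_
    · exact approx_mul_lt _ (ho2 (md k) (by intro h; cases h))
    · rw [Valuation.map_neg]
      exact approx_mul_lt _ (hm1 (md k) ⟨k, rfl⟩)
    · exact approx_mul_lt _ (hz2 (md k) (by intro h; cases h))
  · have : Eo * go + Em * gm + Ez * gz - gz = Eo * go + Em * gm + -((1 - Ez) * gz) := by ring
    rw [this]
    refine Valuation.map_add_lt _ (Valuation.map_add_lt _ ?_ ?_) ?_
    · exact approx_mul_lt _ (ho2 zr (by intro h; cases h))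
    · exact approx_mul_lt _ (hm2 zr (by rintro ⟨k, hk⟩; cases hk))
    · rw [Valuation.map_neg]
      exact approx_mul_lt _ (hz1 zr rfl)

end Fermat.Agent.CAR.ON
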