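import Fermat.Agent.CAR.FQ2C.Main
import Fermat.Agent.CAR.ON.Global

/-!
# CAR / ON : the global step at the concrete level `F = FN (M' q²)` (names of `CAR/FQ2C`, helper96)
-/

set_option autoImplicit false

open ModularCurve AlgebraicCurve

noncomputable section

namespace Fermat.Agent.CAR.ON

open Fermat.Agent.GR Fermat.Agent.GAL Fermat.Agent.GAL.KL Fermat.Agent.GAL.KLC Fermat.Agent.S24
open Fermat.Agent.GR.HeckeField Fermat.Agent.TOR Fermat.Agent.TOR.GB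
open Fermat.Agent.CAR.FQ2V Fermat.Agent.CAR.FQ2E Fermat.Agent.CAR.FQ2C

variable {M' q : ℕ} [NeZero M'] [NeZero q] (A : ValuationSubring Qb) (ζ : Qbˣ)

/-- dictionary: `≡ 1` at all `q + 1` valuations. -/
theorem near_oneC {w : FN (M' * q * q)} (h1 : HasRed A (w : LaurentSeries Qb) 1)
    (h2 : HasRed A ((wqq M' q w : FN (M' * q * q)) : LaurentSeries Qb) 1)
    (h3 : ∀ c, HasRed A (eMidC M' q ζ c w) 1) (i : FQ2V.Idx q) :
    vC M' q A ζ i (w - 1) < 1 := by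
  rcases i with _ | _ | c
  · exact vOf_sub_one_lt A _ h1
  · exact vOf_sub_one_lt A _ h2
  · exact vOf_sub_one_lt A _ (h3 c)

/-- **the global step at level `M' q²`**: if `w ≡ 1` at the `q + 1` cusps over `∞'` and each chart `tC`, `tC⁻¹` carries one section
`G ≡ 1` of the class of `w`, then `w` is an `n`-th power. -/
theorem pow_of_sectionsC (hM : AdmLevel M') (hq : q.Prime) (hqM : ¬ q ∣ M')
    (hA : A.LiesOverPrime q) (hζ : IsPrimitiveRoot ζ q) {n : ℕ} (hn : 0 < n) (hqn : ¬ q ∣ n)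
    {w : FN (M' * q * q)} (hw : ∀ i, vC M' q A ζ i (w - 1) < 1)
    (h0 : ∃ G ∈ II Qb (tC M' q) n w, ∀ i, vC M' q A ζ i (G - 1) < 1)
    (hoo : ∃ G ∈ II Qb (tC M' q)⁻¹ n w, ∀ i, vC M' q A ζ i (G - 1) < 1) :
    ∃ y : FN (M' * q * q), y ^ n = w :=
  pow_of_sections (FQ2C.lvl2 A ζ hq hqM hA hζ) (xDatC A hM hq hqM hA) hq.two_le (arch_C A ζ hq hA)
    (delStd A ζ hq hqM hA hζ) (card_units hq).ge (finrankAlong_al hq hqM) (finrankAlong_ga hq hqM)
    hn (vC_natCast A ζ hq hA hqn _) hw h0 hoo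

end Fermat.Agent.CAR.ON
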