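import Fermat.Agent.CAR.ON.Basis
import Fermat.Agent.CAR.FQ2.ResField

/-!
# CAR / ON : packages ON-G, ON-H : the residue fields of the `(q+1)`-family

* at `∞` and at `0` the residue field is the residue field `κ' = red F₀` of level `M'`;
* at the middle indices the residue field is BIGGER (`κ'(ψ)`), but an element which has THE SAME reduction at all `md i`
  (e.g. an element fixed by inertia) reduces into `κ'`.
-/

set_option autoImplicit false

open Polynomial ModularCurve AlgebraicCurve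

noncomputable section

namespace Fermat.Agent.CAR.ON

open Fermat.Agent.GAL.KL Fermat.Agent.GAL.KLC Fermat.Agent.TOR.T1 Fermat.Agent.CAR.KLm
open Fermat.Agent.S24.FF Fermat.Agent.GAL

variable {K F₀ F k Γ' Γ₀ I : Type*} [Field K] [Field F₀] [Field F] [Algebra K F₀]
  [Algebra K F] [Field k] [LinearOrderedCommGroupWithZero Γ'] [LinearOrderedCommGroupWithZero Γ₀]
  {v₀ : Valuation F₀ Γ'} {ρ₀ : v₀.integer →+* LaurentSeries k}
  {v : Idx I → Valuation F Γ₀} {ρ : ∀ i, (v i).integer →+* LaurentSeries k}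
  {α β γ : F₀ →ₐ[K] F} {q : ℕ} [NeZero q] {x x' : F₀} {ξ ξ' : LaurentSeries k} {m : ℕ}

/-- the residue field `κ' = red F₀` as a subfield of `k((Q))`. -/
def resF (hρ₀ : IsRed K v₀ ρ₀) : Subfield (LaurentSeries k) where
  carrier := {φ | ∃ c, Rd ρ₀ c φ}
  mul_mem' := by
    rintro _ _ ⟨c, hc⟩ ⟨c', hc'⟩
    exact ⟨_, hc.mul hc'⟩
  one_mem' := ⟨1, Rd.one⟩
  add_mem' := by
    rintro _ _ ⟨c, hc⟩ ⟨c', hc'⟩
    exact ⟨_, hc.add hc'⟩
  zero_mem' := ⟨0, Rd.zero⟩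
  neg_mem' := by
    rintro _ ⟨c, hc⟩
    exact ⟨_, hc.neg⟩
  inv_mem' := by
    rintro φ ⟨c, hc⟩
    by_cases hφ : φ = 0
    · subst hφ
      rw [inv_zero]
      exact ⟨0, Rd.zero⟩
    · exact ⟨_, hc.inv hρ₀ hφ⟩

theorem mem_resF (hρ₀ : IsRed K v₀ ρ₀) {φ : LaurentSeries k} :
    φ ∈ resF hρ₀ ↔ ∃ c, Rd ρ₀ c φ := Iff.rfl

theorem C_mem_resF (hρ₀ : IsRed K v₀ ρ₀) (c : k) : HahnSeries.C c ∈ resF hρ₀ := by
  obtain ⟨a, ha, h⟩ := hρ₀.const_surj c
  exact ⟨_, ha, h⟩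

theorem redE_mem_resF (X : XDat K ρ₀ x x' ξ ξ' m q) (hρ₀ : IsRed K v₀ ρ₀) (j : ℕ) :
    redE ξ ξ' m j ∈ resF hρ₀ := ⟨_, OnE_rd X _ _⟩

section Main

variable (H : Lvl2 K ρ₀ v ρ α β γ q) (X : XDat K ρ₀ x x' ξ ξ' m q)
  {δ : F} {ψ : LaurentSeries k} {cc : I → k}
include H X

/-- **residue field at `∞`.**
Proof: `exists_basis` gives `Em`, `ONm`, `Spans`.  `approx3` with targets `(1, 0, 0)` and a tolerance `γ₀ ≤ 1` with `γ₀ * v i z ≤ 1` for all
`i` (`FQ2.Approx_exists_small`, `FQ2.Approx_mul_lt`) gives `e` with `Rd (ρ oo) (e * z) φ` and `NN v (e * z) ≤ 1`.  Then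
`FQ2.rd_mem_of_NN_le` with `E := resF H.red₀`, `τ = ξ^(q*q+1)` (`rd_tt_oo`), `hbE` from `rd_bas_oo` + `Rd.unique`
(`Fin.addCases`: the reductions are `redE ..` or `0`). -/
theorem res_oo [Fintype I] [IsAlgClosed K] [CharZero K] [IsFF1 K F] (hq : 2 ≤ q)
    (hA : ∀ i, Arch (v i)) (Dl : Del v ρ δ ψ cc) (hI : q - 1 ≤ Fintype.card I)
    (hα : finrankAlong K α = q * (q + 1)) (hγ : finrankAlong K γ = q * (q + 1))
    {z : F} {φ : LaurentSeries k} (h : Rd (ρ oo) z φ) : ∃ c, Rd ρ₀ c φ := by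
  classical
  obtain ⟨Em, E, hON, hSp⟩ := exists_basis H X hq hA Dl hI hα hγ
  obtain ⟨γ', hγ', hle, hs⟩ := FQ2.Approx_exists_small
    (Finset.univ.image fun i : Idx I => v i z) (one_ne_zero : (1 : Γ₀) ≠ 0)
  have hs' : ∀ i, γ' * v i z ≤ 1 := fun i => hs _ (Finset.mem_image.2 ⟨i, Finset.mem_univ _, rfl⟩)
  obtain ⟨e, he1, he2, he3⟩ := approx3 H X hq hA 1 0 0 hγ'
  have h1 : Rd (ρ oo) (e * z) φ := by
    have := (rd_of_sub_one_lt H oo (lt_of_lt_of_le he1 hle)).mul h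
    rwa [one_mul] at this
  have h2 : NN v (e * z) ≤ 1 := by
    rw [NN_le_iff]
    intro i
    rcases i with _ | _ | i
    · exact h1.le_one
    · rw [map_mul]
      rw [sub_zero] at he3
      exact (FQ2.Approx_mul_lt he3 (hs' _) one_ne_zero).le
    · rw [map_mul]
      have := he2 i
      rw [sub_zero] at this
      exact (FQ2.Approx_mul_lt this (hs' _) one_ne_zero).le
  refine (mem_resF H.red₀).1 (FQ2.rd_mem_of_NN_le (setup H X) _ hON hSp oo (H.red oo)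
    (resF H.red₀) (C_mem_resF H.red₀) (rd_tt_oo H X) ⟨_, X.rx.pow _⟩ ?_ h1 h2)
  intro j φ' hφ'
  rw [hφ'.unique (rd_bas_oo H X E j)]
  refine Fin.addCases (fun j => ?_) (fun j => ?_) j
  · rw [Fin.append_left]
    refine Fin.addCases (fun j => ?_) (fun j => ?_) j
    · rw [Fin.append_left]
      exact redE_mem_resF X H.red₀ _
    · rw [Fin.append_right]
      exact zero_mem _
  · rw [Fin.append_right]
    exact zero_mem _

/-- **residue field at `0`.**  Same proof with targets `(0, 0, 1)`, `rd_tt_zr`, `rd_bas_zr`. -/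
theorem res_zr [Fintype I] [IsAlgClosed K] [CharZero K] [IsFF1 K F] (hq : 2 ≤ q)
    (hA : ∀ i, Arch (v i)) (Dl : Del v ρ δ ψ cc) (hI : q - 1 ≤ Fintype.card I)
    (hα : finrankAlong K α = q * (q + 1)) (hγ : finrankAlong K γ = q * (q + 1))
    {z : F} {φ : LaurentSeries k} (h : Rd (ρ zr) z φ) : ∃ c, Rd ρ₀ c φ := by
  classical
  obtain ⟨Em, E, hON, hSp⟩ := exists_basis H X hq hA Dl hI hα hγ
  obtain ⟨γ', hγ', hle, hs⟩ := FQ2.Approx_exists_small
    (Finset.univ.image fun i : Idx I => v i z) (one_ne_zero : (1 : Γ₀) ≠ 0)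
  have hs' : ∀ i, γ' * v i z ≤ 1 := fun i => hs _ (Finset.mem_image.2 ⟨i, Finset.mem_univ _, rfl⟩)
  obtain ⟨e, he1, he2, he3⟩ := approx3 H X hq hA 0 0 1 hγ'
  have h1 : Rd (ρ zr) (e * z) φ := by
    have := (rd_of_sub_one_lt H zr (lt_of_lt_of_le he3 hle)).mul h
    rwa [one_mul] at this
  have h2 : NN v (e * z) ≤ 1 := by
    rw [NN_le_iff]
    intro i
    rcases i with _ | _ | i
    · rw [map_mul]
      rw [sub_zero] at he1
      exact (FQ2.Approx_mul_lt he1 (hs' _) one_ne_zero).le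
    · exact h1.le_one
    · rw [map_mul]
      have := he2 i
      rw [sub_zero] at this
      exact (FQ2.Approx_mul_lt this (hs' _) one_ne_zero).le
  refine (mem_resF H.red₀).1 (FQ2.rd_mem_of_NN_le (setup H X) _ hON hSp zr (H.red zr)
    (resF H.red₀) (C_mem_resF H.red₀) (rd_tt_zr H X) ⟨_, X.rx.pow _⟩ ?_ h1 h2)
  intro j φ' hφ'
  rw [hφ'.unique (rd_bas_zr H X E j)]
  refine Fin.addCases (fun j => ?_) (fun j => ?_) j
  · rw [Fin.append_left]
    refine Fin.addCases (fun j => ?_) (fun j => ?_) j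
    · rw [Fin.append_left]
      exact zero_mem _
    · rw [Fin.append_right]
      exact redE_mem_resF X H.red₀ _
  · rw [Fin.append_right]
    exact zero_mem _

end Main

end Fermat.Agent.CAR.ON
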