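import Fermat.Agent.CAR.ON.Approx
import Fermat.Agent.TOR.T1.Basic

/-!
# CAR / ON : reductions of `α x`, `β x`, `γ x`, `t`, of the idempotents; `Setup`
-/

set_option autoImplicit false

open Polynomial ModularCurve AlgebraicCurve

noncomputable section

namespace Fermat.Agent.CAR.ON

open Fermat.Agent.GAL.KL Fermat.Agent.GAL.KLC Fermat.Agent.TOR.T1 Fermat.Agent.CAR.KLm
open Fermat.Agent.GAL

variable {K F₀ F k Γ' Γ₀ I : Type*} [Field K] [Field F₀] [Field F] [Algebra K F₀]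
  [Algebra K F] [Field k] [LinearOrderedCommGroupWithZero Γ'] [LinearOrderedCommGroupWithZero Γ₀]
  {v₀ : Valuation F₀ Γ'} {ρ₀ : v₀.integer →+* LaurentSeries k}
  {v : Idx I → Valuation F Γ₀} {ρ : ∀ i, (v i).integer →+* LaurentSeries k}
  {α β γ : F₀ →ₐ[K] F} {q : ℕ} [NeZero q] {x x' : F₀} {ξ ξ' : LaurentSeries k} {m : ℕ}

theorem VV_xi (X : XDat K ρ₀ x x' ξ ξ' m q) : qExpand k q (qExpand k q ξ) = ξ ^ (q * q) := by
  rw [X.Vx, map_pow, X.Vx, ← pow_mul]

theorem xi_ne_zero (X : XDat K ρ₀ x x' ξ ξ' m q) : ξ ≠ 0 := by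
  rintro rfl
  have h1 := X.ox
  have h2 := X.m_pos
  rw [HahnSeries.order_zero] at h1
  omega

/-- `ξ ^ a ≠ ξ ^ b` for `a ≠ b`. -/
theorem xi_pow_sub_ne_zero (X : XDat K ρ₀ x x' ξ ξ' m q) {a b : ℕ} (hab : a ≠ b) :
    ξ ^ a - ξ ^ b ≠ 0 := by
  intro h
  rw [sub_eq_zero] at h
  have h1 := congrArg HahnSeries.order h
  rw [order_pow_xi X, order_pow_xi X] at h1
  have h2 := X.m_pos
  have h3 : a * m = b * m := by omega
  exact hab (Nat.eq_of_mul_eq_mul_right h2 h3)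

section Rows

variable (H : Lvl2 K ρ₀ v ρ α β γ q) (X : XDat K ρ₀ x x' ξ ξ' m q)
include H X

theorem rd_oo_α : Rd (ρ oo) (α x) ξ := H.ooα x ξ X.rx

theorem rd_oo_β : Rd (ρ oo) (β x) (ξ ^ q) := by
  have h := H.ooβ x ξ X.rx
  rwa [X.Vx] at h

theorem rd_oo_γ : Rd (ρ oo) (γ x) (ξ ^ (q * q)) := by
  have h := H.ooγ x ξ X.rx
  rwa [VV_xi X] at h

theorem rd_zr_α : Rd (ρ zr) (α x) (ξ ^ (q * q)) := by
  have h := H.zrα x ξ X.rx
  rwa [VV_xi X] at h

theorem rd_zr_β : Rd (ρ zr) (β x) (ξ ^ q) := by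
  have h := H.zrβ x ξ X.rx
  rwa [X.Vx] at h

theorem rd_zr_γ : Rd (ρ zr) (γ x) ξ := H.zrγ x ξ X.rx

theorem rd_md_α (i : I) : Rd (ρ (md i)) (α x) ξ := H.mdα i x ξ X.rx

theorem rd_md_β (i : I) : Rd (ρ (md i)) (β x) (ξ ^ q) := by
  have h := H.mdβ i x ξ X.rx
  rwa [X.Vx] at h

theorem rd_md_γ (i : I) : Rd (ρ (md i)) (γ x) ξ := H.mdγ i x ξ X.rx

theorem rd_tt_oo : Rd (ρ oo) (tt α γ x) (ξ ^ (q * q + 1)) := by
  have h := (rd_oo_α H X).mul (rd_oo_γ H X)
  rwa [← pow_succ'] at h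

theorem rd_tt_zr : Rd (ρ zr) (tt α γ x) (ξ ^ (q * q + 1)) := by
  have h := (rd_zr_α H X).mul (rd_zr_γ H X)
  rwa [← pow_succ] at h

theorem rd_tt_md (i : I) : Rd (ρ (md i)) (tt α γ x) (ξ ^ (1 + 1)) := by
  have h := (rd_md_α H X i).mul (rd_md_γ H X i)
  rwa [← pow_two] at h

/-- all valuations are Gauss on `K[t]`. -/
theorem setup : Setup K v (tt α γ x) := by
  refine ⟨?_, H.eqL⟩
  have key : ∀ (i : Idx I) (a : ℕ), 0 < a → Rd (ρ i) (tt α γ x) (ξ ^ a) →
      Gauss K (v i) (tt α γ x) := by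
    intro i a ha h
    obtain ⟨h1, h2⟩ := h
    refine gauss_of_isRed (H.red i) h1 ?_
    rw [h2, order_pow_xi X]
    have h3 : 0 < a * m := Nat.mul_pos ha X.m_pos
    omega
  rintro (_ | _ | i)
  · exact key _ _ (Nat.succ_pos _) (rd_tt_oo H X)
  · exact key _ _ (Nat.succ_pos _) (rd_tt_zr H X)
  · exact key _ _ (Nat.succ_pos _) (rd_tt_md H X i)

theorem transcendental_tt : Transcendental K (tt α γ x) := by
  rw [transcendental_iff]
  exact fun p hp => ((setup H X).G oo).inj p hp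

end Rows

/-- constants reduce in the same way at all indices `md i`. -/
theorem const_md (H : Lvl2 K ρ₀ v ρ α β γ q) (i j : I) (a : K) (φ : LaurentSeries k)
    (h : Rd (ρ (md i)) (algebraMap K F a) φ) : Rd (ρ (md j)) (algebraMap K F a) φ := by
  have h0 : v₀ (algebraMap K F₀ a) ≤ 1 := by
    by_contra hcon
    push Not at hcon
    have ha : a ≠ 0 := by
      rintro rfl
      rw [map_zero, map_zero] at hcon
      exact absurd hcon (by simp)
    have h1 : v₀ (algebraMap K F₀ a⁻¹) < 1 := by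
      rw [map_inv₀, map_inv₀]
      exact inv_lt_one_of_one_lt₀ hcon
    have h2 := H.mdα i _ _ ((rd_zero_iff H.red₀).2 h1)
    rw [AlgHom.commutes] at h2
    have h3 := (rd_zero_iff (H.red (md i))).1 h2
    have h4 := h.le_one
    rw [map_inv₀, map_inv₀] at h3
    have h5 : v (md i) (algebraMap K F a) ≠ 0 :=
      (Valuation.ne_zero_iff _).2 ((map_ne_zero (algebraMap K F)).2 ha)
    have h6 : 1 < v (md i) (algebraMap K F a) := by
      by_contra h7
      push Not at h7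
      exact absurd h3 (not_lt.2 ((one_le_inv₀ (zero_lt_iff.2 h5)).2 h7))
    exact absurd h4 (not_le.2 h6)
  obtain ⟨φ', hφ'⟩ := exists_rd (ρ := ρ₀) h0
  have hi := H.mdα i _ _ hφ'
  have hj := H.mdα j _ _ hφ'
  rw [AlgHom.commutes] at hi hj
  rw [h.unique hi]
  exact hj

section Eps

variable (H : Lvl2 K ρ₀ v ρ α β γ q) (X : XDat K ρ₀ x x' ξ ξ' m q) (hq : 2 ≤ q)
include H X hq

omit H X [NeZero q] in
theorem Table_arith1 : q ≠ q * q * q := by
  intro h
  have h1 : q * 1 < q * (q * q) := by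
    apply Nat.mul_lt_mul_of_pos_left _ (by omega)
    nlinarith
  rw [mul_assoc] at h
  omega

omit H X [NeZero q] in
theorem Table_arith2 : q * q * q ≠ q * q * (q * q * q) := by
  intro h
  have h1 : q * q * q * 1 < q * q * q * (q * q) := by
    apply Nat.mul_lt_mul_of_pos_left _ (by positivity)
    nlinarith
  have h2 : q * q * (q * q * q) = q * q * q * (q * q) := by ring
  omega

theorem rd_epsOo_oo : Rd (ρ oo) (epsOo α β γ q x) 1 := by
  have hne := xi_pow_sub_ne_zero X (Table_arith1 hq)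
  have h := ((rd_oo_β H X).sub ((rd_oo_γ H X).pow q)).div (H.red oo)
    (((rd_oo_α H X).pow q).sub ((rd_oo_α H X).pow (q * q * q))) hne
  rwa [← pow_mul, div_self hne] at h

theorem rd_epsOo_md (i : I) : Rd (ρ (md i)) (epsOo α β γ q x) 0 := by
  have hne := xi_pow_sub_ne_zero X (Table_arith1 hq)
  have h := ((rd_md_β H X i).sub ((rd_md_γ H X i).pow q)).div (H.red (md i))
    (((rd_md_α H X i).pow q).sub ((rd_md_α H X i).pow (q * q * q))) hne
  rwa [sub_self, zero_div] at h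

theorem rd_epsOo_zr : Rd (ρ zr) (epsOo α β γ q x) 0 := by
  have hne := xi_pow_sub_ne_zero X (Table_arith2 hq)
  have h := ((rd_zr_β H X).sub ((rd_zr_γ H X).pow q)).div (H.red zr)
    (((rd_zr_α H X).pow q).sub ((rd_zr_α H X).pow (q * q * q)))
    (by rw [← pow_mul, ← pow_mul]; exact hne)
  rwa [sub_self, zero_div] at h

theorem rd_epsZr_zr : Rd (ρ zr) (epsZr α β γ q x) 1 := by
  have hne := xi_pow_sub_ne_zero X (Table_arith1 hq)
  have h := ((rd_zr_β H X).sub ((rd_zr_α H X).pow q)).div (H.red zr)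
    (((rd_zr_γ H X).pow q).sub ((rd_zr_γ H X).pow (q * q * q))) hne
  rwa [← pow_mul, div_self hne] at h

theorem rd_epsZr_md (i : I) : Rd (ρ (md i)) (epsZr α β γ q x) 0 := by
  have hne := xi_pow_sub_ne_zero X (Table_arith1 hq)
  have h := ((rd_md_β H X i).sub ((rd_md_α H X i).pow q)).div (H.red (md i))
    (((rd_md_γ H X i).pow q).sub ((rd_md_γ H X i).pow (q * q * q))) hne
  rwa [sub_self, zero_div] at h

theorem rd_epsZr_oo : Rd (ρ oo) (epsZr α β γ q x) 0 := by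
  have hne := xi_pow_sub_ne_zero X (Table_arith2 hq)
  have h := ((rd_oo_β H X).sub ((rd_oo_α H X).pow q)).div (H.red oo)
    (((rd_oo_γ H X).pow q).sub ((rd_oo_γ H X).pow (q * q * q)))
    (by rw [← pow_mul, ← pow_mul]; exact hne)
  rwa [sub_self, zero_div] at h

/-- **the approximate idempotents exist.** -/
theorem exists_idem [Finite I] (hA : ∀ i, Arch (v i)) (δ : F) (J : ℕ) :
    ∃ Em : F, Idem v δ J (epsOo α β γ q x) (epsZr α β γ q x) Em :=
  exists_idem_of hA ((rd_epsOo_oo H X hq).sub_lt (H.red oo) Rd.one)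
    ((rd_zero_iff (H.red zr)).1 (rd_epsOo_zr H X hq))
    (fun i => (rd_zero_iff (H.red (md i))).1 (rd_epsOo_md H X hq i))
    ((rd_zero_iff (H.red oo)).1 (rd_epsZr_oo H X hq))
    ((rd_epsZr_zr H X hq).sub_lt (H.red zr) Rd.one)
    (fun i => (rd_zero_iff (H.red (md i))).1 (rd_epsZr_md H X hq i)) δ J

/-- **weak approximation with three targets.** -/
theorem approx3 [Finite I] (hA : ∀ i, Arch (v i)) (go gm gz : F) {γ₀ : Γ₀} (hγ : γ₀ ≠ 0) :
    ∃ G : F, v oo (G - go) < γ₀ ∧ (∀ i, v (md i) (G - gm) < γ₀) ∧ v zr (G - gz) < γ₀ :=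
  approx3_of hA ((rd_epsOo_oo H X hq).sub_lt (H.red oo) Rd.one)
    ((rd_zero_iff (H.red zr)).1 (rd_epsOo_zr H X hq))
    (fun i => (rd_zero_iff (H.red (md i))).1 (rd_epsOo_md H X hq i))
    ((rd_zero_iff (H.red oo)).1 (rd_epsZr_oo H X hq))
    ((rd_epsZr_zr H X hq).sub_lt (H.red zr) Rd.one)
    (fun i => (rd_zero_iff (H.red (md i))).1 (rd_epsZr_md H X hq i)) go gm gz hγ

end Eps

end Fermat.Agent.CAR.ON
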